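import Fermat.Agent.GD.Global.ClassFormation.Second.Decomp

/-!
# Local counting: units modulo powers, unit norms, local degrees
-/

set_option autoImplicit false
set_option linter.unusedSectionVars false
set_option linter.style.haveILetI false

noncomputable section

namespace Fermat.Agent.GD

open Fermat.Agent.Galois (GQ)
open scoped Pointwise

local notation "ℚb" => AlgebraicClosure ℚ

/-- The action on a unit through the global group. -/
theorem smul_decomp {v : Place} (d : (LD v).G) (x : ℚbˣ) :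
    d • x = (show decomp v from d).1 • x := rfl

theorem fixedUnits_anti {v : Place} {K K' : Subgroup (LD v).G} (h : K' ≤ K) :
    fixedUnits K ≤ fixedUnits K' := fun _ hx d hd => hx d (h hd)

theorem localGrp_mono {v : Place} {g : GQ} {H H' : Subgroup GQ} (h : H' ≤ H) :
    localGrp v g H' ≤ localGrp v g H := Subgroup.comap_mono h

theorem localGrp_open {T : Finset Nat.Primes} {H : Subgroup GQ} (hH : (LT T).IsOpen H) (v : Place)
    (g : GQ) : (LD v).IsOpen (localGrp v g H) := by
  obtain ⟨N, ⟨F, hF, hNF, hNn⟩, hle⟩ := hH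
  refine ⟨(show Subgroup GQ from N).subgroupOf (decomp v), ⟨N, ⟨F, hF.1, hNF, hNn⟩, rfl⟩, fun d hd => ?_⟩
  show conjGQ v g d ∈ H
  refine hle ?_
  rw [conjGQ_eq]
  simpa using! hNn.conj_mem _ (Subgroup.mem_subgroupOf.mp hd) g⁻¹

theorem localGrp_eq_top {v : Place} {g : GQ} {H : Subgroup GQ}
    (h : ∀ d ∈ decomp v, g⁻¹ * d * g ∈ H) : localGrp v g H = ⊤ :=
  (Subgroup.eq_top_iff' _).mpr fun d => by
    show conjGQ v g d ∈ H
    rw [conjGQ_eq]
    exact h _ (show decomp v from d).2

/-- The local group at a place where the roots of unity are fixed, fixes them. -/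
theorem smul_root_localGrp {p : ℕ} {v : Place} {g : GQ} {H : Subgroup GQ} (hμ : FixesMu p H)
    {d : (LD v).G} (hd : d ∈ localGrp v g H) {μ : ℚbˣ} (hμ1 : μ ^ p = 1) : d • μ = μ := by
  have h1 : (g⁻¹ * (show decomp v from d).1 * g) (g⁻¹ (μ : ℚb)) = g⁻¹ (μ : ℚb) := by
    refine hμ _ ?_ _ (by rw [← map_pow, ← Units.val_pow_eq_pow_val, hμ1, Units.val_one, map_one])
    rw [← conjGQ_eq]; exact hd
  refine Units.ext (g⁻¹.injective ?_)
  rw [AlgEquiv.mul_apply, AlgEquiv.mul_apply] at h1
  rwa [← AlgEquiv.mul_apply g g⁻¹, mul_inv_cancel, AlgEquiv.one_apply] at h1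

variable {p : ℕ} [hp : Fact p.Prime]

section Ord

variable {q : Nat.Primes} {K : Subgroup (LD (some q)).G}

/-- The order of the units fixed by a group containing inertia, modulo `p`. -/
def ordMod (hI : ∀ s : (LD (some q)).G, s.1 ∈ (placeAt q).inertiaSubgroupIn ℚ → s ∈ K) :
    fixedUnits K →* Multiplicative (ZMod p) :=
  MonoidHom.mk' (fun x => Multiplicative.ofAdd (ordAt (placeAt q) q ((x : ℚbˣ) : ℚb) : ZMod p))
    fun x y => by
      have hex : ∀ z : fixedUnits K, ∃ k : ℤ, (placeAt q).valuation ((z : ℚbˣ) : ℚb) =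
          (placeAt q).valuation ((q : ℕ) : ℚb) ^ k := fun z =>
        NewVec.exists_val_eq_zpow_of_fixed q.2 (placeAt_liesOverPrime q)
          (fun σ hσ => by
            obtain ⟨s, hs, rfl⟩ := hσ
            exact congrArg Units.val (z.2 s (hI s ⟨s, hs, rfl⟩))) (z : ℚbˣ).ne_zero
      rw [← ofAdd_add, ← Int.cast_add]
      congr 2
      exact ordAt_mul q.2 (placeAt_liesOverPrime q) (hex x) (hex y)

variable (hI : ∀ s : (LD (some q)).G, s.1 ∈ (placeAt q).inertiaSubgroupIn ℚ → s ∈ K)

theorem ordMod_apply (x : fixedUnits K) :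
    (ordMod (p := p) hI x).toAdd = (ordAt (placeAt q) q ((x : ℚbˣ) : ℚb) : ZMod p) := rfl

theorem exists_val_fixed (x : fixedUnits K)
    (hI : ∀ s : (LD (some q)).G, s.1 ∈ (placeAt q).inertiaSubgroupIn ℚ → s ∈ K) :
    ∃ k : ℤ, (placeAt q).valuation ((x : ℚbˣ) : ℚb) =
      (placeAt q).valuation ((q : ℕ) : ℚb) ^ k :=
  NewVec.exists_val_eq_zpow_of_fixed q.2 (placeAt_liesOverPrime q)
    (fun σ hσ => by
      obtain ⟨s, hs, rfl⟩ := hσ
      exact congrArg Units.val (x.2 s (hI s ⟨s, hs, rfl⟩))) (x : ℚbˣ).ne_zero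

/-- The prime as a fixed unit. -/
def locPrimeUnit (K : Subgroup (LD (some q)).G) : fixedUnits K :=
  ⟨Units.mk0 ((q : ℕ) : ℚb) (Nat.cast_ne_zero.mpr q.2.ne_zero),
    fun d _ => Units.ext (map_natCast (show decomp (some q) from d).1 _)⟩

theorem ordMod_surjective : Function.Surjective (ordMod (p := p) hI) := by
  intro z
  refine ⟨locPrimeUnit K ^ z.toAdd.val, ?_⟩
  rw [map_pow, show ordMod (p := p) hI (locPrimeUnit K) = Multiplicative.ofAdd 1 from ?_,
    ← ofAdd_nsmul, nsmul_eq_mul, mul_one, ZMod.natCast_zmod_val, ofAdd_toAdd]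
  show Multiplicative.ofAdd ((ordAt (placeAt q) q ((q : ℕ) : ℚb) : ℤ) : ZMod p) = _
  rw [ordAt_eq q.2 (placeAt_liesOverPrime q) (k := 1) (zpow_one _).symm, Int.cast_one]

theorem index_ker_ordMod : (ordMod (p := p) hI).ker.index = p := by
  have h : (ordMod (p := p) hI).range = ⊤ := MonoidHom.range_eq_top.mpr (ordMod_surjective hI)
  rw [Subgroup.index_ker, h, Subgroup.card_top, Nat.card_congr Multiplicative.toAdd, Nat.card_zmod]

end Ord

/-- The units of a local field, as fixed units. -/
def unitsIn (q : Nat.Primes) (K : Subgroup (LD (some q)).G) : Subgroup (fixedUnits K) :=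
  (placeAt q).unitGroup.subgroupOf (fixedUnits K)

/-- The units of the henselisation at a prime different from `p` modulo powers form a line. -/
theorem relIndex_powers_units {q : Nat.Primes} (hqp : (q : ℕ) ≠ p)
    (hμ : ∀ d : (LD (some q)).G, ∀ μ : ℚbˣ, μ ^ p = 1 → d • μ = μ) :
    (powers p (fixedUnits (⊤ : Subgroup (LD (some q)).G))).relIndex (unitsIn q ⊤) = p := by
  set K : Subgroup (LD (some q)).G := ⊤
  set U := unitsIn q K
  set P := powers p (fixedUnits K)
  have hI : ∀ s : (LD (some q)).G, s.1 ∈ (placeAt q).inertiaSubgroupIn ℚ → s ∈ K :=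
    fun s _ => Subgroup.mem_top s
  have hP : P.index = p ^ 2 := by
    have h := card_local_powers p q K ⟨_, (LD (some q)).exists_level.choose_spec, le_top⟩
      (fun d _ μ hμ' => hμ d μ hμ')
    rw [localExp, if_neg hqp, add_zero] at h
    exact h
  have hsup : U ⊔ P = (ordMod (p := p) hI).ker := by
    refine le_antisymm (sup_le (fun x hx => ?_) ?_) fun x hx => ?_
    · rw [MonoidHom.mem_ker]
      apply Multiplicative.toAdd.injective
      rw [ordMod_apply, ordAt_of_val_one q.2 (placeAt_liesOverPrime q) (x := ((x : ℚbˣ) : ℚb))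
        (Subgroup.mem_subgroupOf.mp hx), Int.cast_zero]
      rfl
    · rintro _ ⟨y, rfl⟩
      rw [MonoidHom.mem_ker]
      show ordMod (p := p) hI (y ^ p) = 1
      rw [map_pow]
      apply Multiplicative.toAdd.injective
      rw [toAdd_pow, nsmul_eq_mul, ZMod.natCast_self, zero_mul, toAdd_one]
    · rw [MonoidHom.mem_ker] at hx
      have h0 : ((ordAt (placeAt q) q ((x : ℚbˣ) : ℚb) : ℤ) : ZMod p) = 0 :=
        congrArg Multiplicative.toAdd hx
      obtain ⟨k, hk⟩ := (ZMod.intCast_zmod_eq_zero_iff_dvd _ _).mp h0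
      set π := locPrimeUnit K
      have hx' : x = x / (π ^ k) ^ p * (π ^ k) ^ p := (div_mul_cancel _ _).symm
      rw [hx']
      refine Subgroup.mul_mem_sup (Subgroup.mem_subgroupOf.mpr ?_) ⟨π ^ k, rfl⟩
      obtain ⟨j, hj⟩ := exists_val_fixed x hI
      rw [ordAt_eq q.2 (placeAt_liesOverPrime q) hj] at hk
      rw [ValuationSubring.mem_unitGroup_iff]
      push_cast
      show (placeAt q).valuation (((x : ℚbˣ) : ℚb) / (((q : ℕ) : ℚb) ^ k) ^ p) = 1
      rw [map_div₀, map_pow, map_zpow₀, hj, hk, mul_comm (p : ℤ), zpow_mul, zpow_natCast,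
        div_self (pow_ne_zero _ (zpow_ne_zero _ (natCast_val_ne_zero q.2)))]
  have h1 := Subgroup.relIndex_mul_index (H := P) (K := U ⊔ P) le_sup_right
  rw [hP, hsup, index_ker_ordMod hI, ← hsup, Subgroup.relIndex_sup_right, sq] at h1
  exact Nat.eq_of_mul_eq_mul_right hp.out.pos h1

/-- Units are norms in an unramified extension of degree `p`. -/
theorem unit_is_norm {q : Nat.Primes} {K K' : Subgroup (LD (some q)).G}
    (hK' : (LD (some q)).IsOpen K') (hle : K' ≤ K) (hn : (K'.subgroupOf K).Normal)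
    (hidx : (K'.subgroupOf K).index = p)
    (hI' : ∀ s : (LD (some q)).G, s.1 ∈ (placeAt q).inertiaSubgroupIn ℚ → s ∈ K')
    {c : ℚbˣ} (hc : c ∈ fixedUnits K) (hu : c ∈ (placeAt q).unitGroup) :
    ∃ e ∈ fixedUnits K', c = ∏ᶠ s : K ⧸ K'.subgroupOf K, ((s.out : K) : (LD (some q)).G) • e := by
  haveI : (K'.subgroupOf K).FiniteIndex := ⟨by rw [hidx]; exact hp.out.ne_zero⟩
  haveI : Fintype (K ⧸ K'.subgroupOf K) := Fintype.ofFinite _
  have hI : ∀ s : (LD (some q)).G, s.1 ∈ (placeAt q).inertiaSubgroupIn ℚ → s ∈ K :=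
    fun s hs => hle (hI' s hs)
  let N : Set (fixedUnits K) := {x | ∃ y ∈ fixedUnits K', (x : ℚbˣ) =
    ∏ᶠ s : K ⧸ K'.subgroupOf K, ((s.out : K) : (LD (some q)).G) • y}
  have hNsub : ∀ x ∈ Subgroup.closure N, x ∈ N := fun x hx => by
    induction hx using Subgroup.closure_induction with
    | mem x h => exact h
    | one => exact ⟨1, one_mem _, by simp⟩
    | mul x y _ _ h h' =>
      obtain ⟨a, ha, e⟩ := h
      obtain ⟨b, hb, e'⟩ := h'
      refine ⟨a * b, mul_mem ha hb, ?_⟩
      rw [Subgroup.coe_mul, e, e', finprod_eq_prod_of_fintype, finprod_eq_prod_of_fintype,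
        finprod_eq_prod_of_fintype, ← Finset.prod_mul_distrib]
      exact Finset.prod_congr rfl fun s _ => (smul_mul' _ _ _).symm
    | inv x _ h =>
      obtain ⟨a, ha, e⟩ := h
      refine ⟨a⁻¹, inv_mem ha, ?_⟩
      rw [Subgroup.coe_inv, e, finprod_eq_prod_of_fintype, finprod_eq_prod_of_fintype,
        ← Finset.prod_inv_distrib]
      exact Finset.prod_congr rfl fun s _ => (smul_inv' _ _).symm
  have hindex : (Subgroup.closure N).index = p := card_local_norm p q K K' hK' hle hn hidx
  have hker : Subgroup.closure N ≤ (ordMod (p := p) hI).ker := by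
    rw [Subgroup.closure_le]
    rintro x ⟨y, hy, e⟩
    rw [SetLike.mem_coe, MonoidHom.mem_ker]
    obtain ⟨k, hk⟩ := exists_val_fixed (K := K') ⟨y, hy⟩ hI'
    have hv : (placeAt q).valuation ((x : ℚbˣ) : ℚb) =
        (placeAt q).valuation ((q : ℕ) : ℚb) ^ (k * (p : ℤ)) := by
      rw [e, finprod_eq_prod_of_fintype, Units.coe_prod, map_prod,
        Finset.prod_congr rfl fun s _ => ?_, Finset.prod_const, Finset.card_univ, zpow_mul,
        zpow_natCast, ← Nat.card_eq_fintype_card, show Nat.card (K ⧸ K'.subgroupOf K) = p from hidx]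
      rw [← hk]
      exact Galois.valuation_apply_eq (show decomp (some q) from ((s.out : K) : (LD (some q)).G)).2 _
    apply Multiplicative.toAdd.injective
    rw [ordMod_apply, ordAt_eq q.2 (placeAt_liesOverPrime q) hv, Int.cast_mul, Int.cast_natCast,
      ZMod.natCast_self, mul_zero, toAdd_one]
  have heq : (Subgroup.closure N) = (ordMod (p := p) hI).ker := by
    refine le_antisymm hker ?_
    have h1 := Subgroup.relIndex_mul_index hker
    rw [hindex, index_ker_ordMod hI] at h1
    exact Subgroup.relIndex_eq_one.mp (Nat.eq_of_mul_eq_mul_right hp.out.pos (by rw [h1, one_mul]))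
  refine hNsub ⟨c, hc⟩ ?_
  rw [heq, MonoidHom.mem_ker]
  apply Multiplicative.toAdd.injective
  rw [ordMod_apply, ordAt_of_val_one q.2 (placeAt_liesOverPrime q)
    (x := (((⟨c, hc⟩ : fixedUnits K) : ℚbˣ) : ℚb)) hu, Int.cast_zero, toAdd_one]

/-! ## Local degrees -/

/-- The local degrees add up to the degree. -/
theorem sum_localGrp_index {T : Finset Nat.Primes} {H : Subgroup GQ} (hH : (LT T).IsOpen H)
    (v : Place) [Fintype (PlacesAbove v H)] :
    ∑ w : PlacesAbove v H, (localGrp v (Quotient.out w) H).index = H.index := by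
  haveI : H.FiniteIndex := LevelGroup.IsOpen.finiteIndex hH
  haveI : ∀ w : PlacesAbove v H, (localGrp v (Quotient.out w) H).FiniteIndex := fun w =>
    LevelGroup.IsOpen.finiteIndex (localGrp_open hH v _)
  let φ : (Σ w : PlacesAbove v H, (LD v).G ⧸ localGrp v (Quotient.out w) H) → GQ ⧸ H := fun x =>
    Quotient.liftOn' x.2 (fun d => (((show decomp v from d).1 * Quotient.out x.1 : GQ) : GQ ⧸ H))
      fun a b hab => by
        rw [QuotientGroup.leftRel_apply] at hab
        have h1 : conjGQ v (Quotient.out x.1) (a⁻¹ * b) ∈ H := hab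
        rw [map_mul, map_inv, conjGQ_eq, conjGQ_eq] at h1
        refine QuotientGroup.eq.mpr ?_
        convert h1 using 1
        group
  have hbij : Function.Bijective φ := by
    refine ⟨?_, fun c => ?_⟩
    · rintro ⟨w, c⟩ ⟨w', c'⟩ h
      induction c using QuotientGroup.induction_on with | H a =>
      induction c' using QuotientGroup.induction_on with | H b =>
      have h1 := QuotientGroup.eq.mp h
      have hw : w = w' := by
        rw [← DoubleCoset.out_eq' (decomp v) H w, ← DoubleCoset.out_eq' (decomp v) H w']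
        refine (DoubleCoset.eq _ _ _ _).mpr ⟨(show decomp v from b).1⁻¹ * (show decomp v from a).1,
          mul_mem (inv_mem (show decomp v from b).2) (show decomp v from a).2, _, h1, ?_⟩
        group
      subst hw
      refine congrArg (Sigma.mk w) (QuotientGroup.eq.mpr ?_)
      show conjGQ v (Quotient.out w) (a⁻¹ * b) ∈ H
      rw [map_mul, map_inv, conjGQ_eq, conjGQ_eq]
      convert h1 using 1
      group
    · obtain ⟨g, rfl⟩ := QuotientGroup.mk_surjective c
      obtain ⟨d, hd, h, hh, e⟩ := (inDC_out (DoubleCoset.mk (decomp v) H g) (x := g)).mpr rfl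
      refine ⟨⟨DoubleCoset.mk (decomp v) H g, QuotientGroup.mk (show (LD v).G from ⟨d, hd⟩)⟩,
        QuotientGroup.eq.mpr ?_⟩
      show (d * Quotient.out (DoubleCoset.mk (decomp v) H g))⁻¹ * g ∈ H
      generalize (Quotient.out (DoubleCoset.mk (decomp v) H g) : GQ) = g₀ at e ⊢
      rw [e, inv_mul_cancel_left]
      exact hh
  haveI : ∀ w : PlacesAbove v H, Finite ((LD v).G ⧸ localGrp v (Quotient.out w) H) := fun w =>
    inferInstance
  have h := Nat.card_congr (Equiv.ofBijective φ hbij)
  rw [Nat.card_sigma] at h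
  exact h

theorem complexConjugation_root (hp2 : p ≠ 2) {ζ : ℚb} (hζ : IsPrimitiveRoot ζ p) :
    complexConjugation ζ ≠ ζ := by
  intro h
  have hι := hζ.map_of_injective (f := complexEmbedding) complexEmbedding.injective
  have h1 : starRingEnd ℂ (complexEmbedding ζ) = complexEmbedding ζ := by
    rw [← complexEmbedding_complexConjugation, h]
  have h2 : complexEmbedding ζ ^ 2 = 1 := by
    rw [sq]
    conv_lhs => arg 1; rw [← h1]
    rw [Complex.conj_mul', hι.norm'_eq_one hp.out.ne_zero]
    simp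
  have h3 := Nat.le_of_dvd two_pos (hι.dvd_of_pow_eq_one 2 h2)
  have := hp.out.two_le
  omega

/-- The archimedean places of a field with the roots of unity are complex. -/
theorem localGrp_none (hp2 : p ≠ 2) {H : Subgroup GQ} (hμ : FixesMu p H) (g : GQ) :
    localGrp none g H = ⊥ ∧ (localGrp none g H).index = 2 := by
  obtain ⟨ζ, hζ⟩ := HasEnoughRootsOfUnity.exists_primitiveRoot ℚb p
  have hc : complexConjugation ζ ≠ ζ := complexConjugation_root hp2 hζ
  have hne : complexConjugation ≠ (1 : GQ) := fun h => hc (by rw [h, AlgEquiv.one_apply])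
  have hord : orderOf (complexConjugation : GQ) = 2 :=
    orderOf_eq_prime complexConjugation_sq hne
  have hbot : localGrp none g H = ⊥ := by
    rw [Subgroup.eq_bot_iff_forall]
    intro d hd
    obtain ⟨k, hk⟩ := Subgroup.mem_zpowers_iff.mp
      (show (show decomp none from d).1 ∈ Subgroup.zpowers (complexConjugation : GQ) from
        (show decomp none from d).2)
    rw [← zpow_mod_orderOf, hord] at hk
    rcases Int.emod_two_eq_zero_or_one k with h0 | h0
    · rw [show (k % ((2 : ℕ) : ℤ)) = 0 from h0, zpow_zero] at hk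
      exact Subtype.ext hk.symm
    · rw [show (k % ((2 : ℕ) : ℤ)) = 1 from h0, zpow_one] at hk
      let z : ℚbˣ := Units.mk0 ζ (hζ.ne_zero hp.out.ne_zero)
      refine absurd ?_ hc
      have h1 := congrArg Units.val (smul_root_localGrp hμ hd
        (μ := z) (Units.ext (by simpa [z] using hζ.pow_eq_one)))
      show (complexConjugation : GQ) ζ = ζ
      rw [hk]
      exact h1
  refine ⟨hbot, ?_⟩
  rw [hbot, Subgroup.index_bot]
  show Nat.card (Subgroup.zpowers (complexConjugation : GQ)) = 2
  rw [Nat.card_zpowers, hord]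

end Fermat.Agent.GD
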