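import Fermat.Agent.GD.Global.ClassFormation.Second.Kummer
import Fermat.Agent.GD.Global.ClassFormation.Second.LocalIdx

/-!
# Auxiliary primes: split in the extension, independent on the units
-/

set_option autoImplicit false
set_option linter.unusedSectionVars false
set_option linter.style.haveILetI false

noncomputable section

namespace Fermat.Agent.GD

open Fermat.Agent.Galois (GQ)
open scoped Pointwise

local notation "ℚb" => AlgebraicClosure ℚ

variable {p : ℕ} [hp : Fact p.Prime]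

theorem exists_root_unit (u : ℚbˣ) : ∃ α : ℚbˣ, α ^ p = u := by
  obtain ⟨z, hz⟩ := IsAlgClosed.exists_pow_nat_eq (u : ℚb) hp.out.pos
  have hz0 : z ≠ 0 := fun h => u.ne_zero (by rw [← hz, h, zero_pow hp.out.ne_zero])
  exact ⟨Units.mk0 z hz0, Units.ext (by rw [Units.val_pow_eq_pow_val, Units.val_mk0, hz])⟩

/-- A map to a finite group whose kernel is small enough is surjective. -/
theorem surjective_of_le_index {G : Type*} [Group G] {M : Type*} [Group M] [Finite M]
    (Λ : G →* M) {K : Subgroup G} (hker : Λ.ker ≤ K) (hidx : Nat.card M ≤ K.index) :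
    Function.Surjective Λ := by
  have h0 : Λ.ker.index ≠ 0 := by
    rw [Subgroup.index_ker]
    exact Nat.card_pos.ne'
  refine MonoidHom.range_eq_top.mp (Subgroup.eq_top_of_le_card _ ?_)
  rw [← Subgroup.index_ker]
  exact hidx.trans (Nat.le_of_dvd (Nat.pos_of_ne_zero h0) (Subgroup.index_dvd_of_le hker))

variable (p) in
/-- A chosen `p`-th root. -/
def rootP (u : ℚbˣ) : ℚbˣ := (exists_root_unit (p := p) u).choose

theorem rootP_pow (u : ℚbˣ) : rootP p u ^ p = u := (exists_root_unit (p := p) u).choose_spec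

/-- The data of an auxiliary place: split in the extension, with a chosen Frobenius element. -/
structure AuxPlace (S : Finset Nat.Primes) (H' : Subgroup GQ) where
  q : Nat.Primes
  g : GQ
  s : GQ
  hq : q ∉ S
  hs : s ∈ H'
  hdec : g * s * g⁻¹ ∈ decomp (some q)
  split : ∀ d ∈ decomp (some q), g⁻¹ * d * g ∈ H'

section Kummer

variable {H H' : Subgroup GQ} (hμ : FixesMu p H) {S : Finset Nat.Primes}

include hμ

/-- The Kummer symbol does not depend on the root. -/
theorem kum_eq {σ : GQ} (hσ : σ ∈ H) {u α : ℚbˣ} (hα : α ^ p = u) :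
    σ • rootP p u / rootP p u = σ • α / α := by
  have h1 : (rootP p u / α) ^ p = 1 := by rw [div_pow, rootP_pow, hα, div_self']
  have h2 := smul_root_eq hμ h1 hσ
  rw [smul_div'] at h2
  rw [div_eq_div_iff_mul_eq_mul] at h2 ⊢
  rw [h2, mul_comm]

/-- The Kummer symbol on the units away from `S`. -/
def kum (S : Finset Nat.Primes) {σ : GQ} (hσ : σ ∈ H) : sUnits S H →* ℚbˣ :=
  MonoidHom.mk' (fun u => σ • rootP p (u : ℚbˣ) / rootP p (u : ℚbˣ)) fun u v => by
    rw [kum_eq hμ hσ (α := rootP p (u : ℚbˣ) * rootP p (v : ℚbˣ))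
      (by rw [mul_pow, rootP_pow, rootP_pow, Subgroup.coe_mul]), smul_mul', mul_div_mul_comm]

theorem kum_apply {σ : GQ} (hσ : σ ∈ H) (u : sUnits S H) {α : ℚbˣ} (hα : α ^ p = (u : ℚbˣ)) :
    kum hμ S hσ u = σ • α / α := kum_eq hμ hσ hα

theorem kum_pow_eq_one {σ : GQ} (hσ : σ ∈ H) (u : sUnits S H) : kum hμ S hσ u ^ p = 1 := by
  rw [kum_apply hμ hσ u (rootP_pow _), div_pow, ← smul_pow', rootP_pow, u.2.1 σ hσ, div_self']

/-- The auxiliary places: their symbols are independent on the units modulo the generator. -/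
theorem exists_auxPlaces {N : Subgroup GQ} (hN : (LT S).IsLevel N) (hNH : N ≤ H') (hle : H' ≤ H)
    (hn : (H'.subgroupOf H).Normal) (hidx : (H'.subgroupOf H).index = p)
    (s1 : ℕ) (hcard : (powers p (sUnits S H)).index = p ^ s1)
    (a : sUnits S H) {β : ℚbˣ} {σ₀ : GQ} (hβ : β ^ p = (a : ℚbˣ))
    (hβ' : ∀ h ∈ H', h • β = β) (hσ₀ : σ₀ ∈ H) (hσβ : σ₀ • β ≠ β) :
    1 ≤ s1 ∧ ∀ k, k ≤ s1 - 1 → ∃ L : Fin k → AuxPlace S H', Function.Injective (fun i => (L i).q) ∧
      (⨅ i, (kum hμ S (hle (L i).hs)).ker).index = p ^ k := by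
  classical
  set P := powers p (sUnits S H) ⊔ Subgroup.zpowers a with hPdef
  have hσ' : σ₀ ∉ H' := fun h => hσβ (hβ' _ h)
  have haP : a ∉ powers p (sUnits S H) := by
    rintro ⟨c, hc⟩
    have hc' : (c : ℚbˣ) ^ p = (a : ℚbˣ) := congrArg Subtype.val hc
    have h1 : (β / c) ^ p = 1 := by rw [div_pow, hβ, hc', div_self']
    have h2 := smul_root_eq hμ h1 hσ₀
    rw [smul_div', c.2.1 _ hσ₀, div_left_inj] at h2
    exact hσβ h2
  have hrel : (powers p (sUnits S H)).relIndex P = p := by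
    rw [Subgroup.relIndex_sup_left, ← QuotientGroup.ker_mk' (powers p (sUnits S H)), Subgroup.relIndex_ker,
      MonoidHom.map_zpowers, Nat.card_zpowers]
    refine orderOf_eq_prime ?_ fun h => haP ((QuotientGroup.eq_one_iff a).mp h)
    rw [← map_pow]
    exact (QuotientGroup.eq_one_iff _).mpr ⟨a, rfl⟩
  have hPidx : p * P.index = p ^ s1 := by
    have h1 := Subgroup.relIndex_mul_index (H := powers p (sUnits S H)) (K := P) le_sup_left
    rwa [hrel, hcard] at h1
  have hs1 : 1 ≤ s1 := by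
    by_contra h
    rw [show s1 = 0 by omega, pow_zero, mul_eq_one] at hPidx
    exact hp.out.ne_one hPidx.1
  have hP : P.index = p ^ (s1 - 1) := by
    refine Nat.eq_of_mul_eq_mul_left hp.out.pos (hPidx.trans ?_)
    rw [← pow_succ']
    congr 1
    omega
  have hkerP : ∀ u : (sUnits S H), (∀ σ, ∀ hσ : σ ∈ H', kum hμ S (hle hσ) u = 1) → u ∈ P := by
    intro u hu
    set α := rootP p (u : ℚbˣ)
    have hαH : ∀ h ∈ H', h • α = α := fun h hh => by
      have := hu h hh
      rwa [kum_apply hμ (hle hh) u (rootP_pow _), div_eq_one] at this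
    set z₀ := σ₀ • β / β
    set z₁ := σ₀ • α / α
    have hz0 : z₀ ^ p = 1 := by rw [div_pow, ← smul_pow', hβ, a.2.1 _ hσ₀, div_self']
    have hz1 : z₁ ^ p = 1 := by rw [div_pow, ← smul_pow', rootP_pow, u.2.1 _ hσ₀, div_self']
    have hz0prim : IsPrimitiveRoot ((z₀ : ℚbˣ) : ℚb) p := by
      refine IsPrimitiveRoot.iff_orderOf.mpr
        (orderOf_eq_prime (by rw [← Units.val_pow_eq_pow_val, hz0, Units.val_one]) ?_)
      intro h
      exact hσβ (div_eq_one.mp (Units.ext h))
    obtain ⟨i, -, hi⟩ := hz0prim.eq_pow_of_pow_eq_one (ξ := ((z₁ : ℚbˣ) : ℚb))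
      (by rw [← Units.val_pow_eq_pow_val, hz1, Units.val_one])
    have hi' : z₀ ^ i = z₁ := Units.ext (by rw [Units.val_pow_eq_pow_val, hi])
    set c := α / β ^ i
    have hc : ∀ h ∈ H, h • c = c := by
      refine fun h hh => smul_eq_of_gen hn hidx hσ₀ hσ'
        (fun h hh => by rw [smul_div', smul_pow', hαH h hh, hβ' h hh]) ?_ hh
      rw [smul_div', smul_pow', show σ₀ • α = z₁ * α from (div_mul_cancel _ _).symm,
        show σ₀ • β = z₀ * β from (div_mul_cancel _ _).symm, mul_pow, hi',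
        mul_div_mul_left_eq_div]
    have hcp : c ^ p = ((u / a ^ i : (sUnits S H)) : ℚbˣ) := by
      rw [div_pow, ← pow_mul, mul_comm i, pow_mul, hβ, rootP_pow]
      rfl
    have hcU : c ∈ (sUnits S H) := by
      refine ⟨hc, fun q hq g => ?_⟩
      have h1 : (placeAt q).valuation ((g • c : ℚbˣ) : ℚb) ^ p = 1 := by
        rw [← map_pow, ← Units.val_pow_eq_pow_val, ← smul_pow', hcp]
        exact (u / a ^ i : (sUnits S H)).2.2 q hq g
      exact (pow_eq_one_iff.mp h1).resolve_right hp.out.ne_zero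
    have e : u = (⟨c, hcU⟩ : (sUnits S H)) ^ p * a ^ i := by
      refine Subtype.ext ?_
      push_cast
      rw [hcp]
      push_cast
      rw [div_mul_cancel]
    rw [e]
    exact Subgroup.mul_mem_sup ⟨_, rfl⟩ (pow_mem (Subgroup.mem_zpowers a) i)
  refine ⟨hs1, fun k => ?_⟩
  induction k with
  | zero => exact fun _ => ⟨Fin.elim0, fun i => i.elim0, by simp⟩
  | succ k ih =>
    intro hk
    obtain ⟨L, hinj, hL⟩ := ih (by omega)
    set Uk := ⨅ i, (kum hμ S (hle (L i).hs)).ker
    have hPk : P ≤ Uk := le_iInf fun i => sup_le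
      (by
        rintro _ ⟨c, rfl⟩
        rw [MonoidHom.mem_ker]
        show kum hμ S _ (c ^ p) = 1
        rw [map_pow, kum_pow_eq_one])
      (Subgroup.zpowers_le.mpr (by
        rw [MonoidHom.mem_ker, kum_apply hμ _ a hβ, hβ' _ (L i).hs, div_self']))
    obtain ⟨u, huk, huP⟩ : ∃ u ∈ Uk, u ∉ P := by
      by_contra h
      push Not at h
      have : Uk = P := le_antisymm h hPk
      rw [this, hP] at hL
      have := Nat.pow_right_injective hp.out.two_le hL
      omega
    obtain ⟨σ, hσ, hne⟩ : ∃ σ, ∃ hσ : σ ∈ H', kum hμ S (hle hσ) u ≠ 1 := by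
      by_contra h
      push Not at h
      exact huP (hkerP u h)
    -- the prime
    obtain ⟨FN, hFN, hNF, hNn⟩ := hN
    haveI := hFN.1
    set α := rootP p (u : ℚbˣ)
    haveI : FiniteDimensional ℚ (IntermediateField.adjoin ℚ ({(α : ℚb)} : Set ℚb)) :=
      IntermediateField.adjoin.finiteDimensional (Algebra.IsIntegral.isIntegral (α : ℚb))
    set F := FN ⊔ IntermediateField.adjoin ℚ ({(α : ℚb)} : Set ℚb)
    haveI : FiniteDimensional ℚ F := IntermediateField.finiteDimensional_sup _ _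
    obtain ⟨ℓ, hℓ, hbad, A, hA, σ₁, hσ₁, τ, hτ⟩ := DS.exists_frobenius_conj F
      ((S ∪ Finset.univ.image fun i => (L i).q).image Subtype.val) σ
    set q : Nat.Primes := ⟨ℓ, hℓ⟩
    have hq : q ∉ S ∧ ∀ i, (L i).q ≠ q := by
      constructor
      · exact fun h => hbad (Finset.mem_image.mpr ⟨q, Finset.mem_union_left _ h, rfl⟩)
      · exact fun i h => hbad (Finset.mem_image.mpr ⟨(L i).q, Finset.mem_union_right _
          (Finset.mem_image_of_mem _ (Finset.mem_univ i)), congrArg Subtype.val h⟩)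
    set s : GQ := τ * σ₁ * τ⁻¹
    have hsN : σ⁻¹ * s ∈ N := by
      rw [hNF, IntermediateField.mem_fixingSubgroup_iff]
      intro x hx
      rw [AlgEquiv.mul_apply, hτ x ((le_sup_left : FN ≤ F) hx)]
      exact σ.symm_apply_apply x
    have hsH' : s ∈ H' := by
      have := mul_mem hσ (hNH hsN)
      rwa [mul_inv_cancel_left] at this
    have hkum : kum hμ S (hle hsH') u ≠ 1 := by
      intro h
      apply hne
      rw [kum_apply hμ _ u (rootP_pow _)] at h ⊢
      rw [← h]
      congr 1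
      refine Units.ext ?_
      show σ (α : ℚb) = s (α : ℚb)
      exact (hτ _ ((le_sup_right : _ ≤ F) (IntermediateField.mem_adjoin_simple_self ℚ (α : ℚb)))).symm
    have hs' := frobeniusAt_conj hσ₁ τ
    have hA' := liesOverPrime_smul hA τ
    obtain ⟨g, hg⟩ := Galois.exists_smul_eq_of_liesOverPrime hℓ hA' (placeAt_liesOverPrime q)
    have hσ₀' : (placeAt q).IsFrobeniusAt (g * s * g⁻¹) ℓ := by
      rw [hg]; exact frobeniusAt_conj hs' g
    let NL : Subgroup (LD (some q)).G := (show Subgroup GQ from N).subgroupOf (decomp (some q))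
    have hNL : Unram NL := by
      refine ⟨⟨_, ⟨N, ⟨FN, hFN.1, hNF, hNn⟩, rfl⟩, le_rfl⟩, ?_, fun t ht => ?_⟩
      · haveI : (show Subgroup GQ from N).Normal := hNn
        exact Subgroup.normal_subgroupOf
      · exact Subgroup.mem_subgroupOf.mpr (by
          rw [hNF]; exact hFN.2 q hq.1 (placeAt q) (placeAt_liesOverPrime q) ht)
    have hsplit : ∀ d ∈ decomp (some q), g⁻¹ * d * g ∈ H' := by
      intro d hd
      obtain ⟨i, hi⟩ := exists_pow_frobenius hNL
        (σ := (⟨g * s * g⁻¹, hσ₀'.mem_decompositionSubgroup⟩ : decomp (some q))) hσ₀'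
        (⟨d, hd⟩ : decomp (some q))
      have hi' : d⁻¹ * (g * s * g⁻¹) ^ i ∈ N := Subgroup.mem_subgroupOf.mp hi
      set m := d⁻¹ * (g * s * g⁻¹) ^ i
      have e : g⁻¹ * d * g = s ^ i * (g⁻¹ * m⁻¹ * g) := by
        simp only [m, conj_pow]; group
      rw [e]
      refine mul_mem (pow_mem hsH' i) (hNH ?_)
      simpa using! hNn.conj_mem _ (inv_mem hi') g⁻¹
    let P' : AuxPlace S H' := ⟨q, g, s, hq.1, hsH', hσ₀'.mem_decompositionSubgroup, hsplit⟩
    refine ⟨Fin.snoc L P', ?_, ?_⟩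
    · rw [show (fun i => ((Fin.snoc L P' : Fin (k + 1) → AuxPlace S H') i).q) =
        Fin.snoc (fun i => (L i).q) q from
        funext fun i => by induction i using Fin.lastCases <;> simp [P']]
      exact Fin.snoc_injective_iff.mpr ⟨hinj, fun ⟨i, hi⟩ => hq.2 i hi⟩
    · set κ := kum hμ S (hle hsH')
      have hinf : (⨅ i, (kum hμ S (hle ((Fin.snoc L P' : Fin (k + 1) → AuxPlace S H') i).hs)).ker) =
          κ.ker ⊓ Uk := by
        ext x
        simp only [Subgroup.mem_iInf, Subgroup.mem_inf, MonoidHom.mem_ker, Uk]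
        rw [Fin.forall_fin_succ', and_comm]
        simp [κ, P', kum]
      rw [hinf]
      have hroot : Uk.map κ = rootsOfUnity p ℚb := by
        have hle2 : Uk.map κ ≤ rootsOfUnity p ℚb := by
          rintro _ ⟨x, -, rfl⟩
          exact (mem_rootsOfUnity p _).mpr (kum_pow_eq_one hμ _ x)
        haveI : NeZero (p : ℚb) := ⟨Nat.cast_ne_zero.mpr hp.out.ne_zero⟩
        haveI : NeZero p := ⟨hp.out.ne_zero⟩
        have hp' : Nat.card (rootsOfUnity p ℚb) = p := HasEnoughRootsOfUnity.natCard_rootsOfUnity ℚb p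
        refine Subgroup.eq_of_le_of_card_ge hle2 ?_
        rcases (Nat.dvd_prime hp.out).mp (hp' ▸ Subgroup.card_dvd_of_le hle2) with h1 | h1
        · exact absurd (by rw [Subgroup.card_eq_one] at h1
                           exact Subgroup.mem_bot.mp (h1 ▸ Subgroup.mem_map_of_mem κ huk)) hkum
        · rw [h1, hp']
      have hrel' : κ.ker.relIndex Uk = p := by
        haveI : NeZero (p : ℚb) := ⟨Nat.cast_ne_zero.mpr hp.out.ne_zero⟩
        haveI : NeZero p := ⟨hp.out.ne_zero⟩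
        rw [Subgroup.relIndex_ker, hroot]
        exact HasEnoughRootsOfUnity.natCard_rootsOfUnity ℚb p
      have h1 := Subgroup.relIndex_mul_index (H := κ.ker ⊓ Uk) (K := Uk) inf_le_right
      rw [Subgroup.inf_relIndex_right, hrel', hL] at h1
      rw [← h1, pow_succ']

/-- Units adjusting given units at the auxiliary places by powers. -/
theorem exists_auxAdjust (hle : H' ≤ H) (hpS : pPrime p ∈ S) {r : ℕ} (L : Fin r → AuxPlace S H')
    (hL : (⨅ i, (kum hμ S (hle (L i).hs)).ker).index = p ^ r)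
    (c : Fin r → ℚbˣ)
    (hc : ∀ i, c i ∈ fixedUnits (⊤ : Subgroup (LD (some (L i).q)).G))
    (hcu : ∀ i, c i ∈ (placeAt (L i).q).unitGroup) :
    ∃ u : sUnits S H, ∀ i, ∃ e ∈ fixedUnits (⊤ : Subgroup (LD (some (L i).q)).G),
      c i = ((L i).g • (u : ℚbˣ)) * e ^ p := by
  classical
  have hfix : ∀ i (u : sUnits S H),
      (L i).g • (u : ℚbˣ) ∈ fixedUnits (⊤ : Subgroup (LD (some (L i).q)).G) := by
    intro i u d _
    show (show decomp (some (L i).q) from d).1 • (L i).g • (u : ℚbˣ) = _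
    set dd := (show decomp (some (L i).q) from d).1
    rw [show dd • (L i).g • (u : ℚbˣ) = (L i).g • ((L i).g⁻¹ * dd * (L i).g) • (u : ℚbˣ) by
      rw [smul_smul, smul_smul]; congr 1; group,
      u.2.1 _ (hle ((L i).split dd (show decomp (some (L i).q) from d).2))]
  have hμloc : ∀ i, ∀ d : (LD (some (L i).q)).G, ∀ μ : ℚbˣ, μ ^ p = 1 → d • μ = μ := fun i d μ hμ1 =>
    smul_root_localGrp hμ (g := (L i).g) (by
      show conjGQ _ _ d ∈ H
      rw [conjGQ_eq]
      exact hle ((L i).split _ (show decomp (some (L i).q) from d).2)) hμ1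
  have hqp : ∀ i, ((L i).q : ℕ) ≠ p := fun i h => (L i).hq (by
    rwa [show (L i).q = pPrime p from Subtype.ext h])
  let A : ∀ i, Subgroup (fixedUnits (⊤ : Subgroup (LD (some (L i).q)).G)) := fun i => unitsIn (L i).q ⊤
  let B : ∀ i, Subgroup (A i) := fun i =>
    (powers p (fixedUnits (⊤ : Subgroup (LD (some (L i).q)).G))).subgroupOf (A i)
  let f : ∀ i, sUnits S H →* A i := fun i => MonoidHom.mk'
    (fun u => ⟨⟨(L i).g • (u : ℚbˣ), hfix i u⟩, u.2.2 _ (L i).hq _⟩)
    fun u v => Subtype.ext (Subtype.ext (smul_mul' _ _ _))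
  let Λ : sUnits S H →* ∀ i, A i ⧸ B i :=
    MonoidHom.pi fun i => (QuotientGroup.mk' (B i)).comp (f i)
  have hcardQ : Nat.card (∀ i, A i ⧸ B i) = p ^ r := by
    refine Nat.card_pi.trans ((Finset.prod_congr rfl fun i _ => ?_).trans (by simp : ∏ _i : Fin r, p = p ^ r))
    exact relIndex_powers_units (hqp i) (hμloc i)
  haveI : Finite (∀ i, A i ⧸ B i) :=
    Nat.finite_of_card_ne_zero (by rw [hcardQ]; exact pow_ne_zero _ hp.out.ne_zero)
  have hker : Λ.ker ≤ ⨅ i, (kum hμ S (hle (L i).hs)).ker := by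
    intro u hu
    refine Subgroup.mem_iInf.mpr fun i => MonoidHom.mem_ker.mpr ?_
    have h1 : QuotientGroup.mk' (B i) (f i u) = 1 := congrFun (MonoidHom.mem_ker.mp hu) i
    rw [QuotientGroup.mk'_apply, QuotientGroup.eq_one_iff] at h1
    obtain ⟨e, he⟩ := Subgroup.mem_subgroupOf.mp h1
    have he' : (e : ℚbˣ) ^ p = (L i).g • (u : ℚbˣ) := congrArg Subtype.val he
    have hα : ((L i).g⁻¹ • (e : ℚbˣ)) ^ p = (u : ℚbˣ) := by
      rw [← smul_pow', he', inv_smul_smul]
    rw [kum_apply hμ _ u hα, div_eq_one]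
    have h2 : ((L i).g * (L i).s * (L i).g⁻¹) • (e : ℚbˣ) = (e : ℚbˣ) :=
      e.2 (⟨_, (L i).hdec⟩ : decomp (some (L i).q)) (Subgroup.mem_top _)
    rw [smul_smul, eq_inv_smul_iff, smul_smul, ← mul_assoc]
    exact h2
  obtain ⟨u, hu⟩ := surjective_of_le_index Λ hker (by rw [hL]; exact hcardQ.le)
    (fun i => QuotientGroup.mk' (B i) ⟨⟨c i, hc i⟩, hcu i⟩)
  refine ⟨u, fun i => ?_⟩
  have h1 : QuotientGroup.mk' (B i) (f i u) = QuotientGroup.mk' (B i) ⟨⟨c i, hc i⟩, hcu i⟩ :=
    congrFun hu i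
  obtain ⟨e, he⟩ := Subgroup.mem_subgroupOf.mp (QuotientGroup.eq.mp h1)
  refine ⟨e, e.2, ?_⟩
  have he' : (e : ℚbˣ) ^ p = ((L i).g • (u : ℚbˣ))⁻¹ * c i := congrArg Subtype.val he
  rw [he', mul_inv_cancel_left]

end Kummer

end Fermat.Agent.GD
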