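import Fermat.Agent.GD.Global.ClassFormation.Second.Norms

/-!
# Fixed classes modulo `p`-th multiples for a big set
-/

set_option autoImplicit false
set_option linter.unusedSectionVars false
set_option linter.style.haveILetI false

noncomputable section

namespace Fermat.Agent.GD

open Fermat.Agent.Galois (GQ)

local notation "ℚb" => AlgebraicClosure ℚ

variable {p : ℕ} [hp : Fact p.Prime] {T : Finset Nat.Primes} {H : Subgroup GQ}

/-- The multiples of `p` among the fixed classes. -/
def pMultiples (p : ℕ) (T : Finset Nat.Primes) (H : Subgroup GQ) : AddSubgroup (fixedClasses T H) :=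
  (nsmulAddMonoidHom p : fixedClasses T H →+ fixedClasses T H).range

/-- A unit away from a big set which is a power at all places of the set is a power. -/
theorem mem_powers_of_local (hp2 : p ≠ 2) (hpT : pPrime p ∈ T) {N : Subgroup GQ}
    (hN : (LT T).IsLevel N) (hNH : N ≤ H) (hbig : IsBig T N) (hμ : FixesMu p H) (u : sUnits T H)
    (hloc : ∀ i : PlaceIdx T H, ∃ z ∈ fixedUnits (localGrp (idxPlace i) (idxRep i) H),
      z ^ p = idxRep i • (u : ℚbˣ)) : u ∈ powers p (sUnits T H) := by
  obtain ⟨b, hb⟩ := exists_root_unit (p := p) (u : ℚbˣ)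
  have hxloc : ∀ v ∈ placesOf T, ∀ γ : GQ, ∃ z ∈ fixedUnits (localGrp v γ H),
      z ^ p = γ • (u : ℚbˣ) := by
    intro v hv γ
    obtain ⟨d, hd, h, hh, e⟩ := (inDC_out (DoubleCoset.mk (decomp v) H γ) (x := γ)).mpr rfl
    obtain ⟨z, hz, hzp⟩ := hloc ⟨⟨v, hv⟩, DoubleCoset.mk (decomp v) H γ⟩
    change z ∈ fixedUnits (localGrp v (Quotient.out (DoubleCoset.mk (decomp v) H γ)) H) at hz
    change z ^ p = (Quotient.out (DoubleCoset.mk (decomp v) H γ) : GQ) • (u : ℚbˣ) at hzp
    generalize (Quotient.out (DoubleCoset.mk (decomp v) H γ) : GQ) = g at e hz hzp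
    refine ⟨d • z, fun d' hd' => ?_, by rw [← smul_pow', hzp, e, mul_smul, mul_smul, u.2.1 h hh]⟩
    set δ := (show decomp v from d').1 with hδ
    have hd'' : γ⁻¹ * δ * γ ∈ H := by rw [hδ, ← conjGQ_eq]; exact hd'
    have hm : g⁻¹ * (d⁻¹ * δ * d) * g ∈ H := by
      have h1 : g⁻¹ * (d⁻¹ * δ * d) * g = h * (γ⁻¹ * δ * γ) * h⁻¹ := by rw [e]; group
      rw [h1]
      exact mul_mem (mul_mem hh hd'') (inv_mem hh)
    have h2 : (d⁻¹ * δ * d) • z = z :=
      hz (⟨_, mul_mem (mul_mem (inv_mem hd) (show decomp v from d').2) hd⟩ : decomp v)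
        ((mem_localGrp _).mpr hm)
    show δ • d • z = d • z
    rw [mul_smul, mul_smul, inv_smul_eq_iff] at h2
    exact h2
  have hbH := kummer_core hp2 hpT hN hNH hbig hμ (r := 0) Fin.elim0 Fin.elim0 (fun i => i.elim0)
    (fun i => i.elim0) (fun c _ _ => ⟨1, fun i => i.elim0⟩) u.2.1 hxloc
    (fun q hq γ _ => u.2.2 q hq γ) hb
  refine ⟨⟨b, hbH, fun q hq γ => ?_⟩, Subtype.ext hb⟩
  have h1 : (placeAt q).valuation ((γ • b : ℚbˣ) : ℚb) ^ p = 1 := by
    rw [← map_pow, ← Units.val_pow_eq_pow_val, ← smul_pow', hb]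
    exact u.2.2 q hq γ
  exact (pow_eq_one_iff.mp h1).resolve_right hp.out.ne_zero

/-- The local exponent of a place. -/
def idxExp (p : ℕ) {T : Finset Nat.Primes} (H : Subgroup GQ) (i : PlaceIdx T H) : ℕ :=
  match idxPlace i with
  | none => 0
  | some q => 2 + localExp p (some q) (localGrp (some q) (idxRep i) H)

theorem card_idx_powers (hp2 : p ≠ 2) (hH : (LT T).IsOpen H) (hμ : FixesMu p H)
    (i : PlaceIdx T H) :
    Nat.card (fixedUnits (localGrp (idxPlace i) (idxRep i) H) ⧸
      powers p (fixedUnits (localGrp (idxPlace i) (idxRep i) H))) = p ^ idxExp p H i := by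
  obtain ⟨⟨v, hv⟩, w⟩ := i
  cases v with
  | none =>
    show Nat.card (fixedUnits (localGrp none (Quotient.out w) H) ⧸ powers p _) = p ^ 0
    rw [pow_zero]
    refine Subgroup.index_eq_one.mpr ((Subgroup.eq_top_iff' _).mpr fun x => ?_)
    obtain ⟨z, hz⟩ := exists_root_unit (p := p) (x : ℚbˣ)
    refine ⟨⟨z, fun d hd => ?_⟩, Subtype.ext hz⟩
    rw [(localGrp_none hp2 hμ (Quotient.out w)).1, Subgroup.mem_bot] at hd
    rw [hd, one_smul]
  | some q =>
    exact card_local_powers p q _ (localGrp_open hH _ _)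
      (fun d hd μ hμ1 => smul_root_localGrp hμ hd hμ1)

theorem sum_idxExp (hp2 : p ≠ 2) (hpT : pPrime p ∈ T) (hH : (LT T).IsOpen H) (hμ : FixesMu p H)
    [Fintype (PlaceIdx T H)] :
    ∑ i : PlaceIdx T H, idxExp p H i = 2 * ∑ v ∈ placesOf T, Nat.card (PlacesAbove v H) := by
  classical
  haveI := fun v : Place => finite_placesAbove_open (H := H) hH v
  letI := fun v : Place => Fintype.ofFinite (PlacesAbove v H)
  let A : Place → ℕ := fun v => match v with
    | none => 0
    | some q => 2 * Nat.card (PlacesAbove (some q) H) + if (q : ℕ) = p then H.index else 0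
  have hinner : ∀ v : {v : Place // v ∈ placesOf T},
      ∑ w : PlacesAbove v.1 H, idxExp p H (⟨v, w⟩ : PlaceIdx T H) = A v.1 := by
    rintro ⟨v, hv⟩
    cases v with
    | none => exact Finset.sum_eq_zero fun w _ => rfl
    | some q =>
      show ∑ w : PlacesAbove (some q) H,
        (2 + localExp p (some q) (localGrp (some q) (Quotient.out w) H)) = _
      rw [Finset.sum_add_distrib, Finset.sum_const, smul_eq_mul, Finset.card_univ, mul_comm,
        ← Nat.card_eq_fintype_card]
      show _ = 2 * Nat.card (PlacesAbove (some q) H) + _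
      congr 1
      simp only [localExp]
      split_ifs with h
      · exact sum_localGrp_index hH (some q)
      · exact Finset.sum_const_zero
  have hnone : H.index = 2 * Nat.card (PlacesAbove none H) := by
    refine (sum_localGrp_index hH none).symm.trans ?_
    refine (Finset.sum_congr rfl fun w _ => (localGrp_none hp2 hμ (Quotient.out w)).2).trans ?_
    rw [Finset.sum_const, smul_eq_mul]
    exact (mul_comm _ _).trans (congrArg (2 * ·) (Nat.card_eq_fintype_card (α := PlacesAbove none H)).symm)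
  calc ∑ i : PlaceIdx T H, idxExp p H i
      = ∑ v : {v : Place // v ∈ placesOf T}, ∑ w : PlacesAbove v.1 H,
          idxExp p H (⟨v, w⟩ : PlaceIdx T H) := by
        convert Fintype.sum_sigma (fun i : PlaceIdx T H => idxExp p H i)
    _ = ∑ v ∈ placesOf T, A v := by
        rw [Finset.sum_congr rfl fun v _ => hinner v, Finset.sum_coe_sort (placesOf T) A]
    _ = _ := by
      have hs : (∑ q ∈ T, if (q : ℕ) = p then H.index else 0) = H.index :=
        (Finset.sum_eq_single_of_mem (pPrime p) hpT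
          fun q _ hq => if_neg fun h => hq (Subtype.ext h)).trans (if_pos rfl)
      unfold placesOf
      rw [Finset.sum_insertNone, Finset.sum_insertNone]
      show 0 + ∑ q ∈ T, (2 * Nat.card (PlacesAbove (some q) H) + if (q : ℕ) = p then H.index else 0) = _
      rw [zero_add, Finset.sum_add_distrib, hs, hnone, ← Finset.mul_sum, mul_add, add_comm]

/-- Counting through a presentation by local components. -/
theorem card_le_of_components {A B C U : Type*} [AddCommGroup A] [AddCommGroup B] [AddCommGroup C]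
    [AddCommGroup U] (π : A →+ B) (Ψ : A →+ C) (ι : U →+ A) (hπ : Function.Surjective π)
    (hΨ : Function.Surjective Ψ) (hk : π.ker ≤ Ψ.ker) (hι : ∀ u, Ψ (ι u) = 0) {a : ℕ} (ha : a ≠ 0)
    (hB : Nat.card B = a * a) {K : AddSubgroup U} (hK : ∀ u, π (ι u) = 0 ↔ u ∈ K)
    (hKi : K.index = a) : Nat.card C ≠ 0 ∧ Nat.card C ≤ a := by
  have hker : (π.comp ι).ker = K := AddSubgroup.ext fun u => AddMonoidHom.mem_ker.trans (hK u)
  have hrange : (π.comp ι).range.index = a := by
    have h1 := AddSubgroup.card_mul_index (π.comp ι).range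
    rw [← AddSubgroup.index_ker, hker, hKi, hB] at h1
    exact Nat.eq_of_mul_eq_mul_left (Nat.pos_of_ne_zero ha) h1
  have hle : (π.comp ι).range.comap π ≤ Ψ.ker := by
    rintro y ⟨u, hu⟩
    have h1 : y - ι u ∈ π.ker := by
      rw [AddMonoidHom.mem_ker, map_sub, ← hu, AddMonoidHom.comp_apply, sub_self]
    have h2 : ι u ∈ Ψ.ker := hι u
    simpa using add_mem (hk h1) h2
  have hdvd := AddSubgroup.index_dvd_of_le hle
  rw [AddSubgroup.index_comap_of_surjective _ hπ, hrange, AddSubgroup.index_ker,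
    AddMonoidHom.range_eq_top.mpr hΨ, AddSubgroup.card_top] at hdvd
  exact ⟨ne_zero_of_dvd_ne_zero ha hdvd, Nat.le_of_dvd (Nat.pos_of_ne_zero ha) hdvd⟩

/-- The fixed classes modulo `p`: the places over a big set bound them. -/
theorem index_pMultiples_le (hp2 : p ≠ 2) (hpT : pPrime p ∈ T) {N : Subgroup GQ}
    (hN : (LT T).IsLevel N) (hNH : N ≤ H) (hbig : IsBig T N) (hμ : FixesMu p H) :
    (pMultiples p T H).index ≠ 0 ∧
      (pMultiples p T H).index ≤ p ^ ∑ v ∈ placesOf T, Nat.card (PlacesAbove v H) := by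
  classical
  have hoH : (LT T).IsOpen H := ⟨N, hN, hNH⟩
  haveI := finite_placeIdx (S := T) hoH
  haveI : Fintype (PlaceIdx T H) := Fintype.ofFinite _
  set s1 := ∑ v ∈ placesOf T, Nat.card (PlacesAbove v H) with hs1
  let Q : PlaceIdx T H → Type := fun i => fixedUnits (localGrp (idxPlace i) (idxRep i) H) ⧸
    powers p (fixedUnits (localGrp (idxPlace i) (idxRep i) H))
  haveI : ∀ i, Finite (Q i) := fun i => Nat.finite_of_card_ne_zero (by
    rw [card_idx_powers hp2 hoH hμ i]
    exact pow_ne_zero _ hp.out.ne_zero)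
  let π : (∀ i : PlaceIdx T H, Additive (fixedUnits (localGrp (idxPlace i) (idxRep i) H))) →+
      ∀ i : PlaceIdx T H, Additive (fixedUnits (localGrp (idxPlace i) (idxRep i) H) ⧸
        powers p (fixedUnits (localGrp (idxPlace i) (idxRep i) H))) :=
    AddMonoidHom.pi fun i => (MonoidHom.toAdditive (QuotientGroup.mk'
      (powers p (fixedUnits (localGrp (idxPlace i) (idxRep i) H))))).comp (Pi.evalAddMonoidHom _ i)
  let Ψ : (∀ i : PlaceIdx T H, Additive (fixedUnits (localGrp (idxPlace i) (idxRep i) H))) →+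
      fixedClasses T H :=
    ∑ i : PlaceIdx T H, (placeHom hoH (idxPlace i) (idxRep i)).comp (Pi.evalAddMonoidHom _ i)
  let ι : Additive (sUnits T H) →+
      ∀ i : PlaceIdx T H, Additive (fixedUnits (localGrp (idxPlace i) (idxRep i) H)) :=
    AddMonoidHom.mk' (fun u i => Additive.ofMul
      (⟨idxRep i • (u.toMul : ℚbˣ), apply_mem_fixedUnits (f := diag (u.toMul : ℚbˣ))
        (fun v d _ g => mul_smul d g _)
        (fun v g h hh => by
          show (g * h) • (u.toMul : ℚbˣ) = g • _
          rw [mul_smul, u.toMul.2.1 h hh]) (idxPlace i) (idxRep i)⟩ :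
          fixedUnits (localGrp (idxPlace i) (idxRep i) H)))
      fun u v => funext fun i => congrArg Additive.ofMul (Subtype.ext (smul_mul' _ _ _))
  have hΨval : ∀ c, (Ψ c : ClassT T) =
      ∑ i, placeCls T (idxPlace i) (idxRep i) H (((c i).toMul : fixedUnits _) : ℚbˣ) := fun c => by
    simp only [Ψ, AddMonoidHom.finsetSum_apply, AddSubgroup.val_finsetSum]
    rfl
  set Ψ' := (QuotientAddGroup.mk' (pMultiples p T H)).comp Ψ with hΨ'
  have hsurjΨ : Function.Surjective Ψ := by
    intro c
    obtain ⟨f, hf, hfc⟩ := exists_fixed_lift T H hoH c.1 c.2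
    obtain ⟨x, hx, hxu⟩ := hbig H hNH f fun h hh => congrArg Subtype.val (hf h hh)
    set J : idele T := f / ⟨diag x, (diag_mem_fixedIdeles hN hNH hx).1⟩
    have hJfix : IsFix H J.1 := fun v γ h hh => by
      show f.1 v (γ * h) / (γ * h) • x = f.1 v γ / γ • x
      rw [isFix_of_smul_eq hf v γ h hh, mul_smul, hx h hh]
    have hJc : toClass T J = c.1 := by
      rw [← hfc, toClass_eq_iff, div_div_cancel_left]
      exact inv_mem (diag_mem_classKer hN hNH hx)
    refine ⟨fun i => Additive.ofMul ⟨_, apply_mem_fixedUnits J.2.1 hJfix (idxPlace i) (idxRep i)⟩,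
      Subtype.ext ?_⟩
    rw [hΨval, ← hJc, toClass_eq_sum (S := T) (Finset.Subset.refl _) hoH J hJfix fun q hq γ => hxu q hq γ]
    rfl
  have hι : ∀ u, Ψ (ι u) = 0 := fun u => by
    refine Subtype.ext ?_
    rw [hΨval, AddSubgroup.coe_zero]
    have hu : ∀ h ∈ H, h • (u.toMul : ℚbˣ) = u.toMul := u.toMul.2.1
    have hm := diag_mem_fixedIdeles (T := T) hN hNH hu
    have h0 : toClass T ⟨diag (u.toMul : ℚbˣ), hm.1⟩ = 0 :=
      toClass_eq_zero_iff.mpr (diag_mem_classKer hN hNH hu)
    rw [← h0, toClass_eq_sum (S := T) (Finset.Subset.refl _) hoH ⟨diag (u.toMul : ℚbˣ), hm.1⟩ hm.2 fun q hq γ => u.toMul.2.2 q hq γ]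
    rfl
  have hπsurj : Function.Surjective π := fun z =>
    ⟨fun i => Additive.ofMul (z i).toMul.out, funext fun i => Additive.toMul.injective
      (QuotientGroup.out_eq' _)⟩
  have hπker : π.ker ≤ Ψ'.ker := by
    intro c hc
    have hc' : ∀ i, ∃ d : Additive (fixedUnits (localGrp (idxPlace i) (idxRep i) H)),
        c i = p • d := fun i => by
      obtain ⟨d, hd⟩ := (QuotientGroup.eq_one_iff _).mp
        (congrArg Additive.toMul (congrFun (AddMonoidHom.mem_ker.mp hc) i))
      exact ⟨Additive.ofMul d, Additive.toMul.injective hd.symm⟩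
    choose d hd using hc'
    rw [AddMonoidHom.mem_ker, show c = p • d from funext hd, hΨ', AddMonoidHom.comp_apply, map_nsmul]
    exact (QuotientAddGroup.eq_zero_iff _).mpr ⟨Ψ d, rfl⟩
  have hK : ∀ u, π (ι u) = 0 ↔ u ∈ (powers p (sUnits T H)).toAddSubgroup := by
    intro u
    constructor
    · intro hu
      refine mem_powers_of_local hp2 hpT hN hNH hbig hμ u.toMul fun i => ?_
      obtain ⟨d, hd⟩ := (QuotientGroup.eq_one_iff _).mp (congrArg Additive.toMul (congrFun hu i))
      exact ⟨d.1, d.2, congrArg Subtype.val hd⟩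
    · rintro ⟨w, hw⟩
      refine funext fun i => Additive.toMul.injective ?_
      refine (QuotientGroup.eq_one_iff _).mpr ⟨(ι (Additive.ofMul w) i).toMul, Subtype.ext ?_⟩
      show (idxRep i • (w : ℚbˣ)) ^ p = idxRep i • (u.toMul : ℚbˣ)
      rw [← smul_pow']
      exact congrArg (idxRep i • ·) (congrArg Subtype.val hw)
  have hcardπ : Nat.card (∀ i : PlaceIdx T H, Additive
      (fixedUnits (localGrp (idxPlace i) (idxRep i) H) ⧸
        powers p (fixedUnits (localGrp (idxPlace i) (idxRep i) H)))) = p ^ (2 * s1) := by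
    rw [Nat.card_pi, hs1, ← sum_idxExp hp2 hpT hoH hμ, ← Finset.prod_pow_eq_pow_sum]
    exact Finset.prod_congr rfl fun i _ =>
      (Nat.card_congr Additive.toMul).trans (card_idx_powers hp2 hoH hμ i)
  exact card_le_of_components π Ψ' ι hπsurj ((QuotientAddGroup.mk'_surjective _).comp hsurjΨ)
    hπker (fun u => by rw [hΨ', AddMonoidHom.comp_apply, hι, map_zero])
    (pow_ne_zero _ hp.out.ne_zero) (hcardπ.trans (by rw [two_mul, pow_add])) hK
    (Subgroup.index_toAddSubgroup.trans (card_sUnits_mod p T hp2 H hoH hμ))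

end Fermat.Agent.GD
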