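import Fermat.Agent.GD.Global.ClassFormation.Second.Place

/-!
# Decomposition of fixed ideles along the places of a big set
-/

set_option autoImplicit false
set_option linter.unusedSectionVars false
set_option linter.style.haveILetI false

noncomputable section

namespace Fermat.Agent.GD

open Fermat.Agent.Galois (GQ)

local notation "ℚb" => AlgebraicClosure ℚ

/-- The places of the fixed field over a finite set of places. -/
abbrev PlaceIdx (S : Finset Nat.Primes) (H : Subgroup GQ) : Type :=
  Σ v : {v : Place // v ∈ placesOf S}, PlacesAbove v.1 H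

variable {H : Subgroup GQ} {T S : Finset Nat.Primes}

/-- The place of an index. -/
def idxPlace (i : PlaceIdx S H) : Place := i.1.1

/-- The representative of an index. -/
def idxRep (i : PlaceIdx S H) : GQ := Quotient.out i.2

theorem finite_placesAbove_open (hH : (LT T).IsOpen H) (v : Place) : Finite (PlacesAbove v H) := by
  haveI : (show Subgroup GQ from H).FiniteIndex := LevelGroup.IsOpen.finiteIndex hH
  haveI : Finite (GQ ⧸ H) := Subgroup.finite_quotient_of_finiteIndex
  refine Finite.of_surjective (fun c : GQ ⧸ H => DoubleCoset.mk (decomp v) H c.out) fun x => ?_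
  refine Quotient.inductionOn' x fun g => ⟨(g : GQ ⧸ H), ?_⟩
  obtain ⟨k, hk⟩ := QuotientGroup.mk_out_eq_mul H g
  exact (DoubleCoset.eq _ _ _ _).mpr ⟨1, one_mem _, (k : GQ)⁻¹, inv_mem k.2, by
    rw [hk, one_mul, mul_inv_cancel_right]⟩

theorem finite_placeIdx (hH : (LT T).IsOpen H) : Finite (PlaceIdx S H) :=
  have := finite_placesAbove_open hH
  inferInstance

theorem inDC_out {v : Place} (w : PlacesAbove v H) {x : GQ} :
    InDC v (Quotient.out w) H x ↔ DoubleCoset.mk (decomp v) H x = w := by
  conv_rhs => rw [← DoubleCoset.out_eq' (decomp v) H w]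
  rw [eq_comm, DoubleCoset.eq]
  rfl

/-- The product of the components over the places of `S`. -/
theorem prod_placeFn_apply [Fintype (PlaceIdx S H)] {f : IdeleFn} (he : IsEqv f) (hf : IsFix H f)
    (w : Place) (x : GQ) :
    (∏ i : PlaceIdx S H, sPlaceFn (idxPlace i) (idxRep i) H (f (idxPlace i) (idxRep i))) w x =
      if w ∈ placesOf S then f w x else 1 := by
  classical
  rw [Finset.prod_apply, Finset.prod_apply]
  split
  · rename_i hw
    let i₀ : PlaceIdx S H := ⟨⟨w, hw⟩, DoubleCoset.mk (decomp w) H x⟩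
    rw [Finset.prod_eq_single i₀ ?_ (by simp)]
    · obtain ⟨d, hd, h, hh, e⟩ := (inDC_out (DoubleCoset.mk (decomp w) H x) (x := x)).mpr rfl
      show sPlaceFn w (Quotient.out (DoubleCoset.mk (decomp w) H x)) H
        (f w (Quotient.out (DoubleCoset.mk (decomp w) H x))) w x = f w x
      generalize (Quotient.out (DoubleCoset.mk (decomp w) H x) : GQ) = g at e ⊢
      rw [e, sPlaceFn_apply (apply_mem_fixedUnits he hf w g) hd hh, hf w (d * g) h hh, he w d hd g]
    · rintro ⟨⟨v, hv⟩, c⟩ - hne
      refine sPlaceFn_of_not fun h => hne ?_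
      obtain rfl : w = v := h.1
      have : DoubleCoset.mk (decomp w) H x = c := (inDC_out c).mp h.2
      subst this
      rfl
  · rename_i hw
    exact Finset.prod_eq_one fun i _ => sPlaceFn_of_not fun h => hw (h.1 ▸ i.1.2)

/-- The class of a fixed idele that is a unit away from `S` is the sum of its classes over `S`. -/
theorem toClass_eq_sum [Fintype (PlaceIdx S H)] (hTS : T ⊆ S) (hH : (LT T).IsOpen H) (j : idele T)
    (hj : IsFix H j.1) (hout : ∀ q ∉ S, ∀ g, j.1 (some q) g ∈ (placeAt q).unitGroup) :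
    toClass T j = ∑ i : PlaceIdx S H, placeCls T (idxPlace i) (idxRep i) H
      (j.1 (idxPlace i) (idxRep i)) := by
  classical
  have he : IsEqv j.1 := j.2.1
  have hmem := fun i : PlaceIdx S H => apply_mem_fixedUnits he hj (idxPlace i) (idxRep i)
  set P : PlaceIdx S H → idele T := fun i => ⟨_, sPlaceFn_mem hH (hmem i)⟩ with hP
  have hsum : ∑ i : PlaceIdx S H, placeCls T (idxPlace i) (idxRep i) H
      (j.1 (idxPlace i) (idxRep i)) = toClass T (∏ i, P i) := by
    have h1 : toClass T (∏ i, P i) = toClassHom T (Additive.ofMul (∏ i, P i)) := rfl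
    rw [h1, ofMul_prod, map_sum]
    exact Finset.sum_congr rfl fun i _ => placeCls_eq hH (hmem i)
  rw [hsum, toClass_eq_iff, classKer, Subgroup.mem_subgroupOf]
  refine Subgroup.mem_sup_right ?_
  have hval : ∀ w x, ((j / ∏ i, P i : idele T) : IdeleFn) w x =
      j.1 w x / if w ∈ placesOf S then j.1 w x else 1 := fun w x => by
    rw [← prod_placeFn_apply (S := S) he hj w x]
    show j.1 w x / ((∏ i, P i : idele T) : IdeleFn) w x = _
    rw [SubmonoidClass.coe_finsetProd]
  refine ⟨fun g => ?_, fun q hq g => ?_, fun q g => ?_⟩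
  · rw [hval, if_pos (show none ∈ placesOf S from Finset.none_mem_insertNone), div_self']
  · rw [hval, if_pos (show some q ∈ placesOf S from Finset.some_mem_insertNone.mpr (hTS hq)), div_self']
  · rw [hval]
    split
    · rw [div_self']; exact one_mem _
    · rename_i hq
      rw [div_one]
      exact hout q (fun h => hq (Finset.some_mem_insertNone.mpr h)) g

/-- A principal idele of units outside a finite set. -/
theorem diag_mem_idele_units {x : ℚbˣ} {N : Subgroup GQ} (hN : (LT T).IsLevel N)
    (hx : ∀ s ∈ N, s • x = x) {Z : Set Nat.Primes} (hZ : Z.Finite)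
    (hu : ∀ q ∉ Z, ∀ g : GQ, g • x ∈ (placeAt q).unitGroup) : diag x ∈ idele T := by
  refine ⟨fun v d _ g => mul_smul d g x, ⟨N, hN, fun v g s hs => ?_⟩,
    hZ.subset fun q ⟨g, hg⟩ => by_contra fun hq => hg (hu q hq g)⟩
  show (g * s) • x = g • x
  rw [mul_smul, hx s hs]

theorem toClass_diag {x : ℚbˣ} {N : Subgroup GQ} (hN : (LT T).IsLevel N) (hx : ∀ s ∈ N, s • x = x)
    (hmem : diag x ∈ idele T) : toClass T ⟨diag x, hmem⟩ = 0 := by
  have h : toClass T (1 : idele T) = 0 := map_zero (toClassHom T)
  rw [← h, toClass_eq_iff, div_one, classKer, Subgroup.mem_subgroupOf]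
  exact Subgroup.mem_sup_left ⟨x, ⟨N, hN, hx⟩, rfl⟩

/-- An algebraic number is a unit at almost all places. -/
theorem finite_val_ne_one (x : ℚbˣ) :
    {q : Nat.Primes | (placeAt q).valuation (x : ℚb) ≠ 1}.Finite := by
  haveI : Algebra.IsAlgebraic ℚ ℚb := Galois.isAlgebraic_qbar
  have halg : IsAlgebraic ℤ (x : ℚb) :=
    (IsFractionRing.isAlgebraic_iff ℤ ℚ ℚb).mpr (Algebra.IsAlgebraic.isAlgebraic (x : ℚb))
  obtain ⟨n, hn, hint⟩ := halg.exists_integral_multiple
  rw [zsmul_eq_mul] at hint
  set a : ℚb := (n : ℚb) * (x : ℚb)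
  have ha0 : a ≠ 0 := mul_ne_zero (Int.cast_ne_zero.mpr hn) x.ne_zero
  set c := (minpoly ℤ a).coeff 0
  have hc : c ≠ 0 := by
    intro hc0
    refine minpoly.coeff_zero_ne_zero (A := ℚ) (Algebra.IsIntegral.isIntegral a) ha0 ?_
    rw [minpoly.isIntegrallyClosed_eq_field_fractions' ℚ hint, Polynomial.coeff_map]
    show algebraMap ℤ ℚ c = 0
    rw [hc0, map_zero]
  refine ((Set.finite_le_nat (max n.natAbs c.natAbs)).preimage
    Subtype.val_injective.injOn).subset fun q hq => ?_
  by_contra hlt
  simp only [Set.mem_preimage, Set.mem_ofPred_eq, not_le, max_lt_iff] at hlt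
  refine hq ?_
  have hA := placeAt_liesOverPrime q
  have hcast : ∀ m : ℤ, m ≠ 0 → m.natAbs < (q : ℕ) → (placeAt q).valuation (m : ℚb) = 1 := by
    intro m hm hmq
    refine le_antisymm (((placeAt q).valuation_le_one_iff _).mpr (intCast_mem _ m))
      (not_lt.mp fun h => ?_)
    exact absurd (Nat.le_of_dvd (Int.natAbs_pos.mpr hm)
      (Int.natCast_dvd.mp (dvd_of_nonunit q.2 hA h))) (not_le.mpr hmq)
  have haA : a ∈ placeAt q := Galois.integralClosure_le (placeAt q) ⟨a, hint⟩
  have hva : (placeAt q).valuation a = 1 := by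
    refine le_antisymm (((placeAt q).valuation_le_one_iff a).mpr haA) (not_lt.mp fun h => ?_)
    have h0 := minpoly.aeval ℤ a
    rw [← Polynomial.X_mul_divX_add (minpoly ℤ a), map_add, map_mul, Polynomial.aeval_X,
      Polynomial.aeval_C, eq_intCast, add_eq_zero_iff_eq_neg] at h0
    have h1 : (placeAt q).valuation (a * Polynomial.aeval a (minpoly ℤ a).divX) < 1 := by
      rw [map_mul]
      refine lt_of_le_of_lt (mul_le_of_le_one_right' (((placeAt q).valuation_le_one_iff _).mpr ?_)) h
      rw [Polynomial.aeval_eq_sum_range]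
      exact sum_mem fun i _ => by
        rw [zsmul_eq_mul]
        exact mul_mem (intCast_mem _ _) (pow_mem haA _)
    rw [h0, Valuation.map_neg, hcast c hc hlt.2] at h1
    exact lt_irrefl _ h1
  rwa [map_mul, hcast n hn hlt.1, one_mul] at hva

end Fermat.Agent.GD
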