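import Fermat.Agent.GD.Global.ClassFormation.Second.Bound

/-!
# The norm index of classes is at most `p`
-/

set_option autoImplicit false
set_option linter.unusedSectionVars false
set_option linter.style.haveILetI false

noncomputable section

namespace Fermat.Agent.GD

open Fermat.Agent.Galois (GQ)

local notation "ℚb" => AlgebraicClosure ℚ

variable {p : ℕ} [hp : Fact p.Prime] {T S : Finset Nat.Primes} {H H' : Subgroup GQ}

/-- Classes over auxiliary primes are independent modulo `p`. -/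
theorem dvd_of_sum_mem_pMultiples (hp2 : p ≠ 2) (hpT : pPrime p ∈ T) {N : Subgroup GQ}
    (hN : (LT T).IsLevel N) (hNH : N ≤ H) (hbig : IsBig T N) (hμ : FixesMu p H) (hle : H' ≤ H)
    (hoH : (LT T).IsOpen H) {r : ℕ} (L : Fin r → AuxPlace T H')
    (hinj : Function.Injective fun i => (L i).q)
    (hL : (⨅ i, (kum hμ T (hle (L i).hs)).ker).index = p ^ r) (e : Fin r → ℤ)
    (he : ∑ i, e i • placeHom hoH (some (L i).q) (L i).g
      (Additive.ofMul (locPrimeUnit (localGrp (some (L i).q) (L i).g H))) ∈ pMultiples p T H)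
    (j : Fin r) : (p : ℤ) ∣ e j := by
  classical
  obtain ⟨y, hy⟩ := he
  let c : ∀ i, fixedUnits (localGrp (some (L i).q) (L i).g H) := fun i => locPrimeUnit _ ^ e i
  let P : idele T := ∏ i, ⟨sPlaceFn (some (L i).q) (L i).g H (c i : ℚbˣ), sPlaceFn_mem hoH (c i).2⟩
  have hPcl : toClass T P = p • (y : ClassT T) := by
    have h1 : toClass T P = toClassHom T (Additive.ofMul P) := rfl
    rw [h1, ofMul_prod, map_sum]
    have h2 := congrArg Subtype.val hy
    rw [nsmulAddMonoidHom_apply, AddSubgroup.coe_nsmul, AddSubgroup.val_finsetSum] at h2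
    rw [h2]
    refine Finset.sum_congr rfl fun i _ => ?_
    rw [← map_zsmul (placeHom hoH (some (L i).q) (L i).g)]
    exact (placeCls_eq hoH (c i).2).symm
  have hPv : ∀ v γ, P.1 v γ = ∏ i, sPlaceFn (some (L i).q) (L i).g H (c i : ℚbˣ) v γ := fun v γ => by
    show ((∏ i, ⟨_, sPlaceFn_mem hoH (c i).2⟩ : idele T) : IdeleFn) v γ = _
    rw [SubmonoidClass.coe_finsetProd, Finset.prod_apply, Finset.prod_apply]
  have hPfix : P.1 ∈ fixedIdeles T H := ⟨P.2, fun v γ h hh => by
    rw [hPv, hPv]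
    exact Finset.prod_congr rfl fun i _ => sPlaceFn_fix (c i).2 v γ h hh⟩
  -- a lift of `y`
  obtain ⟨f₀, hf₀, hf₀c⟩ := exists_fixed_lift T H hoH y.1 y.2
  obtain ⟨x₀, hx₀, hx₀u⟩ := hbig H hNH f₀ fun h hh => congrArg Subtype.val (hf₀ h hh)
  set f : idele T := f₀ / ⟨diag x₀, (diag_mem_fixedIdeles hN hNH hx₀).1⟩
  have hffix : f.1 ∈ fixedIdeles T H :=
    div_mem ⟨f₀.2, isFix_of_smul_eq hf₀⟩ (diag_mem_fixedIdeles hN hNH hx₀)
  have hfc : toClass T f = y.1 := by
    rw [← hf₀c, toClass_eq_iff, div_div_cancel_left]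
    exact inv_mem (diag_mem_classKer hN hNH hx₀)
  have hfu : ∀ q ∉ T, ∀ γ, f.1 (some q) γ ∈ (placeAt q).unitGroup := fun q hq γ => hx₀u q hq γ
  set W : idele T := P / f ^ p
  have hW : W ∈ classKer T := by
    refine (toClass_eq_iff _ _).mp ?_
    rw [hPcl, ← hfc]
    exact (map_nsmul (toClassHom T) p (Additive.ofMul f)).symm
  obtain ⟨x, hx, u, -, huU, hxu⟩ := exists_decomp_classKer hN hNH
    (f := W) (div_mem hPfix (pow_mem hffix p)) hW
  have hxval : ∀ v γ, γ • x = P.1 v γ / f.1 v γ ^ p / u.1 v γ := fun v γ => by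
    rw [eq_div_iff_mul_eq']
    exact (hxu v γ).symm
  have hxloc : ∀ v ∈ placesOf T, ∀ γ : GQ, ∃ z ∈ fixedUnits (localGrp v γ H), z ^ p = γ • x := by
    intro v hv γ
    refine ⟨(f.1 v γ)⁻¹, inv_mem (apply_mem_fixedUnits f.2.1 hffix.2 v γ), ?_⟩
    have hu1 : u.1 v γ = 1 := by
      cases v with
      | none => exact huU.1 γ
      | some q => exact huU.2.1 q (Finset.some_mem_insertNone.mp hv) γ
    have hP1 : P.1 v γ = 1 := by
      rw [hPv]
      exact Finset.prod_eq_one fun i _ => sPlaceFn_of_not fun h =>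
        (L i).hq (Finset.some_mem_insertNone.mp (h.1 ▸ hv))
    rw [hxval v γ, hu1, hP1, div_one, one_div, inv_pow]
  have hxunit : ∀ q' ∉ T, ∀ γ : GQ,
      (∀ i, ¬ (q' = (L i).q ∧ InDC (some (L i).q) (L i).g H γ)) →
        γ • x ∈ (placeAt q').unitGroup := by
    intro q' hq' γ hns
    have hP1 : P.1 (some q') γ = 1 := by
      rw [hPv]
      exact Finset.prod_eq_one fun i _ => sPlaceFn_of_not fun h => hns i ⟨Option.some.inj h.1, h.2⟩
    rw [hxval (some q') γ, hP1]
    exact div_mem (div_mem (one_mem _) (pow_mem (hfu q' hq' γ) p)) (huU.2.2 q' γ)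
  obtain ⟨b, hb⟩ := exists_root_unit (p := p) x
  have hbH := kummer_core hp2 hpT hN hNH hbig hμ (fun i => (L i).q) (fun i => (L i).g)
    (fun i => (L i).hq) (fun i d hd => hle ((L i).split d hd))
    (fun c hc hcu => exists_auxAdjust hμ hle hpT L hL c hc hcu) hx hxloc hxunit hb
  -- the order at the chosen place
  set q := (L j).q
  set g := (L j).g
  obtain ⟨F, hF, hNF, hNn⟩ := id hN
  obtain ⟨k, hk⟩ := NewVec.exists_val_eq_zpow_of_fixed q.2 (placeAt_liesOverPrime q)
    (x := ((g • b : ℚbˣ) : ℚb)) (fun s hs => by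
      have hsN : g⁻¹ * s * g ∈ N := by
        simpa using! hNn.conj_mem s
          (by rw [hNF]; exact hF.2 q (L j).hq (placeAt q) (placeAt_liesOverPrime q) hs) g⁻¹
      have h1 := hbH _ (hNH hsN)
      rw [mul_smul, mul_smul, inv_smul_eq_iff] at h1
      exact congrArg Units.val h1) (g • b).ne_zero
  have hPj : P.1 (some q) g = (c j : ℚbˣ) := by
    rw [hPv, Finset.prod_eq_single j (fun i _ hij => sPlaceFn_of_not fun h =>
      hij (hinj (Option.some.inj h.1).symm)) (by simp)]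
    exact sPlaceFn_self (c j).2
  have hv1 : (placeAt q).valuation ((g • x : ℚbˣ) : ℚb) =
      (placeAt q).valuation ((q : ℕ) : ℚb) ^ e j := by
    have hu1 : (placeAt q).valuation ((u.1 (some q) g : ℚbˣ) : ℚb) = 1 := huU.2.2 q g
    have hf1 : (placeAt q).valuation ((f.1 (some q) g : ℚbˣ) : ℚb) = 1 := hfu q (L j).hq g
    rw [hxval (some q) g, Units.val_div_eq_div_val, map_div₀, hu1, div_one, Units.val_div_eq_div_val,
      map_div₀, Units.val_pow_eq_pow_val, map_pow, hf1, one_pow, div_one, hPj]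
    show (placeAt q).valuation (((locPrimeUnit (localGrp (some q) g H) ^ e j : fixedUnits _) : ℚbˣ) : ℚb) = _
    rw [Subgroup.coe_zpow, Units.val_zpow_eq_zpow_val, map_zpow₀]
    rfl
  have hv2 : (placeAt q).valuation ((g • x : ℚbˣ) : ℚb) =
      (placeAt q).valuation ((q : ℕ) : ℚb) ^ (k * (p : ℤ)) := by
    rw [← hb, smul_pow', Units.val_pow_eq_pow_val, map_pow, hk, zpow_mul, zpow_natCast]
  refine ⟨k, ?_⟩
  rw [mul_comm, ← ordAt_eq q.2 (placeAt_liesOverPrime q) hv2,
    ordAt_eq q.2 (placeAt_liesOverPrime q) hv1]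

/-- The norm index is at most `p` over a big set. -/
theorem index_classNorms_le_big (hp2 : p ≠ 2) (hpT : pPrime p ∈ T) {N : Subgroup GQ}
    (hN : (LT T).IsLevel N) (hNH' : N ≤ H') (hle : H' ≤ H) (hn : (H'.subgroupOf H).Normal)
    (hidx : (H'.subgroupOf H).index = p) (hbig : IsBig T N) (hμ : FixesMu p H) :
    (classNorms T H H').index ≠ 0 ∧ (classNorms T H H').index ≤ p := by
  classical
  have hoH : (LT T).IsOpen H := ⟨N, hN, hNH'.trans hle⟩
  have hoH' : (LT T).IsOpen H' := ⟨N, hN, hNH'⟩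
  obtain ⟨hP0, hPle⟩ := index_pMultiples_le hp2 hpT hN (hNH'.trans hle) hbig hμ
  obtain ⟨σ, hσ, hσ'⟩ := exists_not_mem hidx
  obtain ⟨β₀, hβ₀, hσβ₀, hβ₀p⟩ := exists_kummer_root hoH' hle hn hidx hμ hσ hσ'
  obtain ⟨β, hβ, hσβ, hβS⟩ :=
    exists_sunit_root (Finset.Subset.refl T) hN hNH' hle hbig hσ hβ₀ hσβ₀ hβ₀p
  obtain ⟨hs1, hL⟩ := exists_auxPlaces hμ hN hNH' hle hn hidx _
    (card_sUnits_mod p T hp2 H hoH hμ) ⟨β ^ p, hβS⟩ (β := β) (σ₀ := σ) rfl hβ hσ hσβ
  set s1 := ∑ v ∈ placesOf T, Nat.card (PlacesAbove v H)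
  obtain ⟨L, hinj, hLidx⟩ := hL (s1 - 1) le_rfl
  let d : Fin (s1 - 1) → fixedClasses T H := fun i => placeHom hoH (some (L i).q) (L i).g
    (Additive.ofMul (locPrimeUnit (localGrp (some (L i).q) (L i).g H)))
  have hd : ∀ i, d i ∈ classNorms T H H' := fun i => mem_classNorms_of_normSet
    (placeCls_mem_normSet_split hoH hoH' hle (fun δ hδ _ => (L i).split δ hδ)
      (locPrimeUnit (localGrp (some (L i).q) (L i).g H)).2)
  have hPN : pMultiples p T H ≤ classNorms T H H' := by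
    rintro _ ⟨y, rfl⟩
    exact mem_classNorms_of_normSet (nsmul_mem_normSet hoH' hle hidx y.2)
  set C := classNorms T H H'
  set P := pMultiples p T H
  have hmul := AddSubgroup.relIndex_mul_index hPN
  have hrel0 : P.relIndex C ≠ 0 := fun h => hP0 (by rw [← hmul, h, zero_mul])
  haveI : Finite (C ⧸ P.addSubgroupOf C) := Nat.finite_of_card_ne_zero hrel0
  let Φ : (Fin (s1 - 1) → Fin p) → C ⧸ P.addSubgroupOf C := fun a =>
    QuotientAddGroup.mk ⟨∑ i, ((a i : ℕ) : ℤ) • d i, sum_mem fun i _ => zsmul_mem (hd i) _⟩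
  have hΦ : Function.Injective Φ := by
    intro a a' h
    have h1 : ∑ i, (((a' i : ℕ) : ℤ) - ((a i : ℕ) : ℤ)) • d i ∈ P := by
      have h2 := AddSubgroup.mem_addSubgroupOf.mp (QuotientAddGroup.eq.mp h)
      rw [AddSubgroup.coe_add, AddSubgroup.coe_neg, neg_add_eq_sub, ← Finset.sum_sub_distrib] at h2
      simpa only [sub_smul] using h2
    funext i
    obtain ⟨k, hk⟩ := dvd_of_sum_mem_pMultiples hp2 hpT hN (hNH'.trans hle) hbig hμ hle hoH L hinj
      hLidx _ h1 i
    have hi := (a i).2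
    have hi' := (a' i).2
    have hk0 : k = 0 := by
      by_contra hk0
      rcases lt_or_gt_of_ne hk0 with hk1 | hk1
      · have : (p : ℤ) * k ≤ (p : ℤ) * (-1) := mul_le_mul_of_nonneg_left (by omega) (by omega)
        omega
      · have : (p : ℤ) * 1 ≤ (p : ℤ) * k := mul_le_mul_of_nonneg_left (by omega) (by omega)
        omega
    rw [hk0, mul_zero] at hk
    exact Fin.ext (by omega)
  have hrel : p ^ (s1 - 1) ≤ P.relIndex C := by
    refine le_trans (le_of_eq ?_) (Nat.card_le_card_of_injective Φ hΦ)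
    simp
  refine ⟨fun h => hP0 (by rw [← hmul, h, mul_zero]), ?_⟩
  refine Nat.le_of_mul_le_mul_left ?_ (pow_pos hp.out.pos (s1 - 1))
  rw [← pow_succ, Nat.sub_add_cancel hs1]
  exact (Nat.mul_le_mul_right _ hrel).trans (hmul.trans_le hPle)

/-- The class of a fixed idele, as a homomorphism. -/
def fixedClHom (T : Finset Nat.Primes) (H : Subgroup GQ) :
    Additive (fixedIdeles T H) →+ fixedClasses T H :=
  AddMonoidHom.mk' (fun f => fixedCl T H f.toMul) fun a b =>
    Subtype.ext (toClass_mul (⟨a.toMul.1, a.toMul.2.1⟩ : idele T) ⟨b.toMul.1, b.toMul.2.1⟩)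

theorem fixedClHom_surjective (hH : (LT T).IsOpen H) : Function.Surjective (fixedClHom T H) := by
  intro c
  obtain ⟨f, hf, hfc⟩ := exists_fixed_lift T H hH c.1 c.2
  exact ⟨Additive.ofMul ⟨f.1, f.2, isFix_of_smul_eq hf⟩, Subtype.ext hfc⟩

theorem fixedIdeles_le_of_level (hTS : T ⊆ S) {N : Subgroup GQ} (hN : (LT T).IsLevel N)
    (hle : N ≤ H) : fixedIdeles S H = fixedIdeles T H := by
  ext f
  exact ⟨fun hf => ⟨⟨hf.1.1, ⟨N, hN, fun v g s hs => hf.2 v g s (hle hs)⟩, hf.1.2.2⟩, hf.2⟩,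
    fun hf => ⟨idele_le_of_subset hTS hf.1, hf.2⟩⟩

/-- The norm index of classes does not grow when the set shrinks. -/
theorem index_classNorms_dvd (hTS : T ⊆ S) (hH' : (LT T).IsOpen H') (hle : H' ≤ H)
    (hn : (H'.subgroupOf H).Normal) (hidx : (H'.subgroupOf H).index = p) :
    (classNorms T H H').index ∣ (classNorms S H H').index := by
  obtain ⟨N, hN, hNH'⟩ := id hH'
  obtain ⟨t, hc⟩ := exists_cycP (H := H) (H' := H') hle hn hidx
  have hNS : (LT S).IsLevel N := isLevel_of_subset hTS hN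
  have hoS' : (LT S).IsOpen H' := ⟨N, hNS, hNH'⟩
  have hoS : (LT S).IsOpen H := ⟨N, hNS, hNH'.trans hle⟩
  have hoT : (LT T).IsOpen H := ⟨N, hN, hNH'.trans hle⟩
  have hEq := fixedIdeles_le_of_level (H := H) hTS hN (hNH'.trans hle)
  let incl : Additive (fixedIdeles T H) →+ Additive (fixedIdeles S H) :=
    MonoidHom.toAdditive (Subgroup.inclusion hEq.ge)
  let αT := (QuotientAddGroup.mk' (classNorms T H H')).comp (fixedClHom T H)
  let αS := ((QuotientAddGroup.mk' (classNorms S H H')).comp (fixedClHom S H)).comp incl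
  have hsT : Function.Surjective αT :=
    (QuotientAddGroup.mk'_surjective _).comp (fixedClHom_surjective hoT)
  have hsS : Function.Surjective αS := by
    intro z
    obtain ⟨f, rfl⟩ := ((QuotientAddGroup.mk'_surjective _).comp (fixedClHom_surjective hoS)) z
    exact ⟨Additive.ofMul ⟨f.toMul.1, hEq.le f.toMul.2⟩, rfl⟩
  have hker : αS.ker ≤ αT.ker := by
    intro f hf
    refine (QuotientAddGroup.eq_zero_iff _).mpr ?_
    obtain ⟨y, hy, e⟩ := exists_of_mem_classNorms (H := H) (H' := H') hoS'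
      ((QuotientAddGroup.eq_zero_iff _).mp hf)
    obtain ⟨y₀, hy₀, rfl⟩ := exists_fixed_lift S H' hoS' y hy
    have hy₀' : y₀.1 ∈ fixedIdeles S H' := ⟨y₀.2, isFix_of_smul_eq hy₀⟩
    have hy₁ : y₀.1 ∈ fixedIdeles T H' := (fixedIdeles_le_of_level hTS hN hNH').le hy₀'
    let y₁ : idele T := ⟨y₀.1, hy₁.1⟩
    have hy₁fix : y₁.1 ∈ fixedIdeles T H' := hy₁
    set W : idele S := (nm (L := LT S) H H' (Additive.ofMul y₀)).toMul
    set WT : idele T := (nm (L := LT T) H H' (Additive.ofMul y₁)).toMul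
    have hWW : WT.1 = W.1 := funext fun v => funext fun γ => by
      rw [nm_idele_apply_range hc hy₁fix, nm_idele_apply_range hc hy₀']
    have hWT : toClass T WT ∈ normSet T H H' := by
      have h1 := nm_mem_normSet (H := (show Subgroup (LT T).G from H)) hH'
        (y := toClass T y₁) fun h hh => by
          rw [smul_toClass, fixedIdeles_smul hy₁fix (show GQ from h) hh]
      rwa [toClass_nm hH'] at h1
    set F : fixedIdeles T H := f.toMul
    set fS : idele S := ⟨F.1, (hEq.ge F.2).1⟩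
    have hk : fS / W ∈ classKer S := (toClass_eq_iff _ _).mp (e.trans (by
      rw [toClass_nm hoS']
      rfl))
    have hfix : (fS / W).1 ∈ fixedIdeles S H :=
      div_mem (hEq.ge F.2) (nm_mem_fixedIdeles hNS hNH' hy₀')
    obtain ⟨x, hx, u, -, huU, hxu⟩ := exists_decomp_classKer hNS (hNH'.trans hle) hfix hk
    have hcl : (⟨F.1, F.2.1⟩ : idele T) / WT ∈ classKer T := by
      rw [classKer, Subgroup.mem_subgroupOf]
      have h1 : ((⟨F.1, F.2.1⟩ / WT : idele T) : IdeleFn) = diag x * u.1 := by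
        funext v γ
        show F.1 v γ / WT.1 v γ = γ • x * u.1 v γ
        rw [hWW]
        exact hxu v γ
      rw [h1]
      exact Subgroup.mul_mem_sup ⟨x, ⟨N, hN, fun s hs => hx s ((hNH'.trans hle) hs)⟩, rfl⟩
        ⟨huU.1, fun q hq => huU.2.1 q (hTS hq), huU.2.2⟩
    refine mem_classNorms_of_normSet ?_
    show toClass T ⟨F.1, F.2.1⟩ ∈ normSet T H H'
    rw [(toClass_eq_iff _ _).mpr hcl]
    exact hWT
  have h := AddSubgroup.index_dvd_of_le hker
  rw [AddSubgroup.index_ker, AddSubgroup.index_ker, AddMonoidHom.range_eq_top.mpr hsT,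
    AddMonoidHom.range_eq_top.mpr hsS, AddSubgroup.card_top, AddSubgroup.card_top] at h
  exact h

end Fermat.Agent.GD
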