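import Fermat.Agent.GD.Global.ClassFormation.Second.Decomp

/-!
# Kummer generators that are units away from a big set, and their unramifiedness
-/

set_option autoImplicit false
set_option linter.unusedSectionVars false
set_option linter.style.haveILetI false

noncomputable section

namespace Fermat.Agent.GD

open IsLocalRing
open Fermat.Agent.Galois (GQ)
open scoped Pointwise

local notation "ℚb" => AlgebraicClosure ℚ

variable {p : ℕ} [hp : Fact p.Prime] {T : Finset Nat.Primes} {H H' : Subgroup GQ}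

theorem smul_root_eq (hμ : FixesMu p H) {μ : ℚbˣ} (hμ1 : μ ^ p = 1) {h : GQ} (hh : h ∈ H) :
    h • μ = μ :=
  Units.ext (hμ h hh μ (by rw [← Units.val_pow_eq_pow_val, hμ1, Units.val_one]))

theorem pow_mem_of_index (hn : (H'.subgroupOf H).Normal) (hidx : (H'.subgroupOf H).index = p)
    {σ : GQ} (hσ : σ ∈ H) : σ ^ p ∈ H' := by
  haveI := hn
  have h2 := Subgroup.pow_index_mem (H := H'.subgroupOf H) (⟨σ, hσ⟩ : H)
  rw [hidx, Subgroup.mem_subgroupOf] at h2
  exact h2

/-- An element outside a subgroup of prime index generates modulo it. -/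
theorem exists_pow_mul_mem (hn : (H'.subgroupOf H).Normal) (hidx : (H'.subgroupOf H).index = p)
    {σ : GQ} (hσ : σ ∈ H) (hσ' : σ ∉ H') {h : GQ} (hh : h ∈ H) :
    ∃ i : ℕ, (σ ^ i)⁻¹ * h ∈ H' := by
  haveI := hn
  have hcard : Nat.card (H ⧸ H'.subgroupOf H) = p := hidx
  have hne : ((⟨σ, hσ⟩ : H) : H ⧸ H'.subgroupOf H) ≠ 1 := fun h1 =>
    hσ' (Subgroup.mem_subgroupOf.mp ((QuotientGroup.eq_one_iff _).mp h1))
  obtain ⟨i, hi⟩ : ((⟨h, hh⟩ : H) : H ⧸ H'.subgroupOf H) ∈
      Submonoid.powers ((⟨σ, hσ⟩ : H) : H ⧸ H'.subgroupOf H) := mem_powers_of_prime_card hcard hne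
  refine ⟨i, ?_⟩
  have h1 : ((⟨σ, hσ⟩ ^ i : H) : H ⧸ H'.subgroupOf H) = ((⟨h, hh⟩ : H) : H ⧸ H'.subgroupOf H) := hi
  rw [QuotientGroup.eq, Subgroup.mem_subgroupOf] at h1
  exact h1

theorem smul_eq_of_gen (hn : (H'.subgroupOf H).Normal) (hidx : (H'.subgroupOf H).index = p)
    {σ : GQ} (hσ : σ ∈ H) (hσ' : σ ∉ H') {x : ℚbˣ} (hx : ∀ h ∈ H', h • x = x) (hσx : σ • x = x)
    {h : GQ} (hh : h ∈ H) : h • x = x := by
  obtain ⟨i, hi⟩ := exists_pow_mul_mem hn hidx hσ hσ' hh
  have h1 : (σ ^ i) • x = x := by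
    have := (Subgroup.pow_mem (MulAction.stabilizer GQ x) hσx i)
    exact this
  have h2 := hx _ hi
  calc h • x = (σ ^ i * ((σ ^ i)⁻¹ * h)) • x := by rw [mul_inv_cancel_left]
    _ = x := by rw [mul_smul, h2, h1]

theorem exists_not_mem (hidx : (H'.subgroupOf H).index = p) : ∃ σ ∈ H, σ ∉ H' := by
  by_contra h
  push Not at h
  have : H'.subgroupOf H = ⊤ := (Subgroup.eq_top_iff' _).mpr fun x => Subgroup.mem_subgroupOf.mpr (h x x.2)
  rw [this, Subgroup.index_top] at hidx
  exact hp.out.ne_one hidx.symm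

/-- Kummer theory: a cyclic extension of degree `p` of a field with the roots of unity is given by
a root. -/
theorem exists_kummer_root (hH' : (LT T).IsOpen H') (hle : H' ≤ H)
    (hn : (H'.subgroupOf H).Normal) (hidx : (H'.subgroupOf H).index = p) (hμ : FixesMu p H)
    {σ : GQ} (hσ : σ ∈ H) (hσ' : σ ∉ H') :
    ∃ β : ℚbˣ, (∀ h ∈ H', h • β = β) ∧ σ • β ≠ β ∧ ∀ h ∈ H, h • β ^ p = β ^ p := by
  classical
  obtain ⟨ζ, hζ⟩ := HasEnoughRootsOfUnity.exists_primitiveRoot ℚb p
  set L := IntermediateField.fixedField H'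
  have hLfix : ∀ g : GQ, (∀ x : L, g (x : ℚb) = x) → g ∈ H' := fun g hg => by
    have h1 := fixingSubgroup_fixedField_open (T := T) (H := (show Subgroup (LT T).G from H')) hH'
    have h2 : g ∈ L.fixingSubgroup :=
      (IntermediateField.mem_fixingSubgroup_iff L g).mpr fun x hx => hg ⟨x, hx⟩
    exact h1.le h2
  haveI : NeZero p := ⟨hp.out.ne_zero⟩
  have hσp : σ ^ p ∈ H' := pow_mem_of_index hn hidx hσ
  have hpow : ∀ i : ZMod p, ∀ x : L, (σ ^ (i + 1).val) (x : ℚb) = σ ((σ ^ i.val) (x : ℚb)) := by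
    intro i x
    rw [← AlgEquiv.mul_apply, ← pow_succ' σ i.val, ZMod.val_add, ZMod.val_one p]
    conv_rhs => rw [← Nat.mod_add_div (i.val + 1) p, pow_add, AlgEquiv.mul_apply, pow_mul]
    rw [(IntermediateField.mem_fixedField_iff _ _).mp x.2 _ (pow_mem hσp _)]
  let χ : ZMod p → (L →* ℚb) := fun i =>
    ((σ ^ i.val).toRingEquiv.toRingHom.comp (algebraMap L ℚb)).toMonoidHom
  have hχ : Function.Injective χ := by
    intro i j hij
    wlog hle' : i.val ≤ j.val generalizing i j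
    · exact (this hij.symm (le_of_not_ge hle')).symm
    have h1 : σ ^ (j.val - i.val) ∈ H' := by
      refine hLfix _ fun x => ?_
      apply (σ ^ i.val).injective
      rw [← AlgEquiv.mul_apply, ← pow_add, Nat.add_sub_cancel' hle']
      exact (DFunLike.congr_fun hij x).symm
    by_contra hne
    have hpos : 0 < j.val - i.val := by
      have : i.val ≠ j.val := fun h => hne (ZMod.val_injective p h)
      omega
    have hlt : j.val - i.val < p := lt_of_le_of_lt (Nat.sub_le _ _) (ZMod.val_lt j)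
    refine hσ' ?_
    have hcop : p.Coprime (j.val - i.val) :=
      hp.out.coprime_iff_not_dvd.mpr fun hd => absurd (Nat.le_of_dvd hpos hd) (not_le.mpr hlt)
    have h2 := mul_mem (zpow_mem hσp (p.gcdA (j.val - i.val)))
      (zpow_mem h1 (p.gcdB (j.val - i.val)))
    rwa [← zpow_natCast, ← zpow_natCast, ← zpow_mul, ← zpow_mul, ← zpow_add,
      ← Nat.gcd_eq_gcd_ab, hcop.gcd_eq_one, Nat.cast_one, zpow_one] at h2
  have hli := (linearIndependent_monoidHom L ℚb).comp _ hχ
  obtain ⟨θ, hθ⟩ : ∃ θ : L, (∑ i : ZMod p, ζ ^ i.val * χ i θ) ≠ 0 := by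
    by_contra hcon
    push Not at hcon
    have h0 := Fintype.linearIndependent_iff.mp hli (fun i => ζ ^ i.val)
      (funext fun θ => by simpa using hcon θ) 0
    exact pow_ne_zero _ (hζ.ne_zero hp.out.ne_zero) h0
  set b := ∑ i : ZMod p, ζ ^ i.val * χ i θ with hb
  have hζfix : ∀ h ∈ H, h ζ = ζ := fun h hh => hμ h hh ζ hζ.pow_eq_one
  have hσb : σ b * ζ = b := by
    rw [hb, map_sum, Finset.sum_mul]
    refine (Finset.sum_congr rfl fun i _ => ?_).trans
      (Equiv.sum_comp (Equiv.addRight (1 : ZMod p)) fun i => ζ ^ i.val * χ i θ)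
    show σ (ζ ^ i.val * (σ ^ i.val) (θ : ℚb)) * ζ = ζ ^ (i + 1).val * (σ ^ (i + 1).val) (θ : ℚb)
    rw [map_mul, map_pow, hζfix σ hσ, hpow i θ, mul_right_comm, ← pow_succ, ZMod.val_add,
      ZMod.val_one p, ← pow_eq_pow_mod _ hζ.pow_eq_one]
  refine ⟨Units.mk0 b hθ, fun h hh => Units.ext ?_, fun h => ?_, fun h hh => ?_⟩
  · show h b = b
    rw [hb, map_sum]
    refine Finset.sum_congr rfl fun i _ => ?_
    show h (ζ ^ i.val * (σ ^ i.val) (θ : ℚb)) = ζ ^ i.val * (σ ^ i.val) (θ : ℚb)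
    rw [map_mul, map_pow, hζfix h (hle hh)]
    congr 1
    have hm : (σ ^ i.val)⁻¹ * h * σ ^ i.val ∈ H' := by
      have := hn.conj_mem (⟨h, hle hh⟩ : H) (Subgroup.mem_subgroupOf.mpr hh)
        (⟨σ ^ i.val, pow_mem hσ _⟩ : H)⁻¹
      rw [Subgroup.mem_subgroupOf] at this
      simpa using this
    have h3 := (IntermediateField.mem_fixedField_iff _ _).mp θ.2 _ hm
    rw [AlgEquiv.mul_apply, AlgEquiv.mul_apply] at h3
    have h4 := congrArg (σ ^ i.val) h3
    rw [← AlgEquiv.mul_apply (σ ^ i.val), mul_inv_cancel, AlgEquiv.one_apply] at h4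
    exact h4
  · have h1 : σ b = b := congrArg Units.val h
    rw [h1] at hσb
    exact hζ.ne_one hp.out.one_lt (mul_left_cancel₀ hθ (hσb.trans (mul_one b).symm))
  · have hfix' : ∀ h ∈ H', h • (Units.mk0 b hθ) ^ p = (Units.mk0 b hθ) ^ p := by
      intro h hh
      refine Units.ext ?_
      show h (b ^ p) = b ^ p
      rw [map_pow]
      congr 1
      rw [hb, map_sum]
      refine Finset.sum_congr rfl fun i _ => ?_
      show h (ζ ^ i.val * (σ ^ i.val) (θ : ℚb)) = ζ ^ i.val * (σ ^ i.val) (θ : ℚb)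
      rw [map_mul, map_pow, hζfix h (hle hh)]
      congr 1
      have hm : (σ ^ i.val)⁻¹ * h * σ ^ i.val ∈ H' := by
        have := hn.conj_mem (⟨h, hle hh⟩ : H) (Subgroup.mem_subgroupOf.mpr hh)
          (⟨σ ^ i.val, pow_mem hσ _⟩ : H)⁻¹
        rw [Subgroup.mem_subgroupOf] at this
        simpa using this
      have h3 := (IntermediateField.mem_fixedField_iff _ _).mp θ.2 _ hm
      rw [AlgEquiv.mul_apply, AlgEquiv.mul_apply] at h3
      have h4 := congrArg (σ ^ i.val) h3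
      rw [← AlgEquiv.mul_apply (σ ^ i.val), mul_inv_cancel, AlgEquiv.one_apply] at h4
      exact h4
    refine smul_eq_of_gen hn hidx hσ hσ' hfix' (Units.ext ?_) hh
    show σ (b ^ p) = b ^ p
    conv_rhs => rw [← hσb]
    rw [map_pow, mul_pow, hζ.pow_eq_one, mul_one]

theorem val_smul_eq_of_pow_eq (q : Nat.Primes) {x : ℚb} (hx : x ^ p = 1) :
    (placeAt q).valuation x = 1 :=
  (pow_eq_one_iff.mp (by rw [← map_pow, hx, map_one])).resolve_right hp.out.ne_zero

/-- A Kummer generator that is a unit away from a big set. -/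
theorem exists_sunit_root {S : Finset Nat.Primes} (hTS : T ⊆ S) {N : Subgroup GQ}
    (hN : (LT T).IsLevel N) (hNH : N ≤ H') (hle : H' ≤ H) (hbig : IsBig S N)
    {σ : GQ} (hσ : σ ∈ H) {β : ℚbˣ} (hβ : ∀ h ∈ H', h • β = β) (hσβ : σ • β ≠ β)
    (hβp : ∀ h ∈ H, h • β ^ p = β ^ p) :
    ∃ β' : ℚbˣ, (∀ h ∈ H', h • β' = β') ∧ σ • β' ≠ β' ∧ β' ^ p ∈ sUnits S H := by
  classical
  obtain ⟨F, hF, hNF, hNn⟩ := hN
  have hNn' : (show Subgroup GQ from N).Normal := hNn
  have hfixg : ∀ (g : GQ) (s : GQ), s ∈ N → s • g • β = g • β := fun g s hs => by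
    have hm : g⁻¹ * s * g ∈ H' := hNH (by simpa using! hNn'.conj_mem s hs g⁻¹)
    calc s • g • β = g • (g⁻¹ * s * g) • β := by rw [smul_smul, smul_smul]; congr 1; group
      _ = g • β := by rw [hβ _ hm]
  have hval : ∀ q ∉ T, ∀ g : GQ, ∃ k : ℤ, (placeAt q).valuation ((g • β : ℚbˣ) : ℚb) =
      (placeAt q).valuation ((q : ℕ) : ℚb) ^ k := fun q hq g => by
    refine NewVec.exists_val_eq_zpow_of_fixed q.2 (placeAt_liesOverPrime q) (fun τ hτ => ?_)
      (g • β).ne_zero
    exact congrArg Units.val (hfixg g τ (by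
      rw [hNF]; exact hF.2 q hq (placeAt q) (placeAt_liesOverPrime q) hτ))
  let qu : Nat.Primes → ℚbˣ := fun q => Units.mk0 ((q : ℕ) : ℚb) (Nat.cast_ne_zero.mpr q.2.ne_zero)
  have hqu : ∀ (q : Nat.Primes) (d : GQ), d • qu q = qu q := fun q d =>
    Units.ext (map_natCast d _)
  let ord : Nat.Primes → GQ → ℤ := fun q g =>
    ordAt (placeAt q) q ((g • β : ℚbˣ) : ℚb)
  let f : IdeleFn := fun v g => match v with
    | none => 1
    | some q => if q ∈ T then 1 else qu q ^ ord q g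
  have hvd : ∀ (q : Nat.Primes) (g d : GQ), d ∈ decomp (some q) → ord q (d * g) = ord q g := by
    intro q g d hd
    show ordAt _ _ _ = ordAt _ _ _
    have h1 : (placeAt q).valuation (((d * g) • β : ℚbˣ) : ℚb) =
        (placeAt q).valuation ((g • β : ℚbˣ) : ℚb) := by
      rw [mul_smul]
      exact Galois.valuation_apply_eq hd _
    simp only [ordAt, h1]
  have hvh : ∀ (q : Nat.Primes) (g h : GQ), h ∈ H → ord q (g * h) = ord q g := by
    intro q g h hh
    show ordAt _ _ _ = ordAt _ _ _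
    set μ := h • β / β
    have hμ1 : μ ^ p = 1 := by
      rw [div_pow, ← smul_pow', hβp h hh, div_self']
    have h1 : (placeAt q).valuation (((g * h) • β : ℚbˣ) : ℚb) =
        (placeAt q).valuation ((g • β : ℚbˣ) : ℚb) := by
      rw [mul_smul, show h • β = μ * β by rw [div_mul_cancel], smul_mul', Units.val_mul, map_mul,
        val_smul_eq_of_pow_eq (p := p) q (x := ((g • μ : ℚbˣ) : ℚb))
          (by rw [← Units.val_pow_eq_pow_val, ← smul_pow', hμ1, smul_one, Units.val_one]), one_mul]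
    simp only [ordAt, h1]
  have hfin : {q : Nat.Primes | ∃ g : GQ, (placeAt q).valuation ((g • β : ℚbˣ) : ℚb) ≠ 1}.Finite := by
    haveI := hF.1
    haveI : Finite (GQ ⧸ F.fixingSubgroup) :=
      Subgroup.quotient_finite_of_isOpen _ F.fixingSubgroup_isOpen
    refine (Set.finite_iUnion fun c : GQ ⧸ F.fixingSubgroup =>
      finite_val_ne_one (c.out • β)).subset fun q ⟨g, hg⟩ => Set.mem_iUnion.mpr ⟨(g : GQ ⧸ _), ?_⟩
    obtain ⟨k, hk⟩ := QuotientGroup.mk_out_eq_mul F.fixingSubgroup g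
    show (placeAt q).valuation _ ≠ 1
    have hk' : (k : GQ) ∈ H' := hNH (by rw [hNF]; exact k.2)
    rwa [hk, mul_smul, hβ _ hk']
  have hfmem : f ∈ idele S := by
    refine ⟨fun v d hd g => ?_, ⟨N, ⟨F, hF.mono hTS, hNF, hNn⟩, fun v g s hs => ?_⟩,
      hfin.subset fun q ⟨g, hg⟩ => ?_⟩
    · rcases v with _ | q
      · exact (smul_one d).symm
      · show ite _ _ _ = d • ite _ _ _
        split
        · exact (smul_one d).symm
        · rw [hvd q g d hd, smul_zpow', hqu]
    · rcases v with _ | q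
      · rfl
      · show ite _ _ _ = ite _ _ _
        rw [hvh q g s (hle (hNH hs))]
    · refine ⟨g, fun h1 => hg ?_⟩
      show ite _ _ _ ∈ _
      split
      · exact one_mem _
      · rw [show ord q g = 0 from ordAt_of_val_one q.2 (placeAt_liesOverPrime q) h1, zpow_zero]
        exact one_mem _
  obtain ⟨x, hx, hxu⟩ := hbig H (hNH.trans hle) ⟨f, hfmem⟩ fun h hh => by
    funext v g
    rcases v with _ | q
    · rfl
    · show ite _ _ _ = ite _ _ _
      rw [hvh q g h hh]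
  have hne : σ • (β / x) ≠ β / x := fun h => hσβ (by
    rw [smul_div', hx σ hσ, div_left_inj] at h
    exact h)
  refine ⟨β / x, fun h hh => by rw [smul_div', hβ h hh, hx h (hle hh)], hne,
    fun h hh => by rw [smul_pow', smul_div', hx h hh, div_pow, div_pow, ← smul_pow', hβp h hh],
    fun q hq g => ?_⟩
  rw [smul_pow']
  refine pow_mem ?_ p
  have h1 := hxu q hq g
  have hqT : q ∉ T := fun h => hq (hTS h)
  obtain ⟨k, hk⟩ := hval q hqT g
  have hfv : f (some q) g = qu q ^ k := by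
    show ite _ _ _ = _
    rw [if_neg hqT]
    congr 1
    exact ordAt_eq q.2 (placeAt_liesOverPrime q) hk
  rw [smul_div', ValuationSubring.mem_unitGroup_iff, Units.val_div_eq_div_val, map_div₀]
  have h2 : (placeAt q).valuation ((f (some q) g / g • x : ℚbˣ) : ℚb) = 1 := h1
  rw [hfv, Units.val_div_eq_div_val, map_div₀, Units.val_zpow_eq_zpow_val, map_zpow₀] at h2
  rw [hk]
  exact h2

/-- Roots of units away from `S` are unramified away from `S`. -/
theorem exists_level_kummerRoot {S : Finset Nat.Primes} (hpS : pPrime p ∈ S) {N : Subgroup GQ}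
    (hN : (LT S).IsLevel N) {x b : ℚbˣ} (hxN : ∀ s ∈ N, s • x = x)
    (hxu : ∀ q ∉ S, ∀ g : GQ, g • x ∈ (placeAt q).unitGroup) (hb : b ^ p = x) :
    ∃ M : Subgroup GQ, (LT S).IsLevel M ∧ M ≤ N ∧ ∀ s ∈ M, ∀ g : GQ, s • g • b = g • b := by
  classical
  obtain ⟨F, hF, hNF, hNn⟩ := hN
  haveI := hF.1
  have hfin : (Set.range fun g : GQ => ((g • b : ℚbˣ) : ℚb)).Finite := by
    refine ((minpoly ℚ (b : ℚb)).rootSet_finite ℚb).subset ?_
    rintro _ ⟨g, rfl⟩
    rw [Polynomial.mem_rootSet]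
    refine ⟨minpoly.ne_zero (Algebra.IsIntegral.isIntegral (b : ℚb)), ?_⟩
    show Polynomial.aeval (g.toAlgHom (b : ℚb)) _ = 0
    rw [Polynomial.aeval_algHom_apply, minpoly.aeval, map_zero]
  let F' := IntermediateField.adjoin ℚ (Set.range fun g : GQ => ((g • b : ℚbˣ) : ℚb))
  haveI := hfin.to_subtype
  haveI : FiniteDimensional ℚ F' :=
    IntermediateField.finiteDimensional_adjoin fun y _ => Algebra.IsIntegral.isIntegral y
  have hmem : ∀ s : GQ, s ∈ F'.fixingSubgroup ↔ ∀ g : GQ, s • g • b = g • b := by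
    intro s
    constructor
    · intro hs g
      exact Units.ext ((IntermediateField.mem_fixingSubgroup_iff F' s).mp hs _
        (IntermediateField.subset_adjoin _ _ ⟨g, rfl⟩))
    · intro hs
      have h1 : F' ≤ IntermediateField.fixedField (Subgroup.zpowers s) := by
        rw [IntermediateField.adjoin_le_iff]
        rintro _ ⟨g, rfl⟩ ⟨t, ht⟩
        exact (Subgroup.zpowers_le (H := MulAction.stabilizer GQ ((g • b : ℚbˣ) : ℚb))).mpr
          (congrArg Units.val (hs g)) ht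
      rw [IntermediateField.mem_fixingSubgroup_iff]
      exact fun y hy => h1 hy ⟨s, Subgroup.mem_zpowers s⟩
  have hF'S : F'.IsUnramifiedOutside S := by
    refine ⟨inferInstance, fun q hq A hA τ hτ => (hmem τ).mpr fun g => ?_⟩
    have hτN : τ ∈ N := by rw [hNF]; exact hF.2 q hq A hA hτ
    have hgx : τ • g • x = g • x := by
      have hm : g⁻¹ * τ * g ∈ N := by simpa using! hNn.conj_mem τ hτN g⁻¹
      calc τ • g • x = g • (g⁻¹ * τ * g) • x := by rw [smul_smul, smul_smul]; congr 1; group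
        _ = g • x := by rw [hxN _ hm]
    obtain ⟨⟨t, htd⟩, htI, rfl⟩ := hτ
    obtain ⟨σ, hσ⟩ := Galois.exists_smul_eq_of_liesOverPrime q.2 (placeAt_liesOverPrime q) hA
    set y := g • b
    have hyp : y ^ p = g • x := by rw [← smul_pow', hb]
    have hA1 : ∀ z : ℚbˣ, (placeAt q).valuation ((σ⁻¹ • z : ℚbˣ) : ℚb) = 1 →
        (z : ℚb) ∈ A ∧ ((z⁻¹ : ℚbˣ) : ℚb) ∈ A := by
      intro z hz
      rw [hσ]
      simp only [ValuationSubring.mem_pointwise_smul_iff_inv_smul_mem]
      exact ⟨((placeAt q).valuation_le_one_iff _).mp hz.le, ((placeAt q).valuation_le_one_iff _).mp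
        (by show (placeAt q).valuation (σ⁻¹ ((z⁻¹ : ℚbˣ) : ℚb)) ≤ 1
            rw [Units.val_inv_eq_inv_val, map_inv₀, map_inv₀]
            exact (inv_eq_one.mpr hz).le)⟩
    have hvy : (placeAt q).valuation ((σ⁻¹ • y : ℚbˣ) : ℚb) = 1 := by
      refine (pow_eq_one_iff.mp ?_).resolve_right hp.out.ne_zero
      rw [← map_pow, ← Units.val_pow_eq_pow_val, ← smul_pow', hyp, smul_smul]
      exact hxu q hq _
    obtain ⟨hyA, hyiA⟩ := hA1 y hvy
    set μ := t • y / y with hμdef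
    have hμ1 : μ ^ p = 1 := by
      rw [div_pow, ← smul_pow', hyp]
      show t • g • x / g • x = 1
      rw [show t • g • x = g • x from hgx, div_self']
    have hty : ((t • y : ℚbˣ) : ℚb) ∈ A := Galois.apply_mem_of_mem_decomposition htd hyA
    have hμA : (μ : ℚb) ∈ A := by
      rw [hμdef, div_eq_mul_inv, Units.val_mul]
      exact mul_mem hty hyiA
    have hres : residue A ⟨(μ : ℚb), hμA⟩ = residue A 1 := by
      have h1 : residue A ⟨_, hty⟩ = residue A ⟨(y : ℚb), hyA⟩ := by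
        exact (Galois.residue_smul_eq htd ⟨(y : ℚb), hyA⟩).symm.trans
          (RingEquiv.congr_fun (MonoidHom.mem_ker.mp htI) (residue A ⟨(y : ℚb), hyA⟩))
      rw [show (⟨(μ : ℚb), hμA⟩ : A) = ⟨_, hty⟩ * ⟨_, hyiA⟩ from
        Subtype.ext (show ((t • y / y : ℚbˣ) : ℚb) = ((t • y : ℚbˣ) : ℚb) * ((y⁻¹ : ℚbˣ) : ℚb) by
          rw [div_eq_mul_inv, Units.val_mul]), map_mul, h1, ← map_mul]
      congr 1
      exact Subtype.ext (Units.mul_inv y)
    have hqp : ¬ (q : ℕ) ∣ p := fun h => hq (by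
      rwa [show q = pPrime p from Subtype.ext ((Nat.prime_dvd_prime_iff_eq q.2 hp.out).mp h)])
    have h2 := GalRep.pow_eq_of_residue_eq q.2 hA hqp
      (x := ⟨(μ : ℚb), hμA⟩) (y := 1)
      (Subtype.ext (by push_cast; rw [← Units.val_pow_eq_pow_val, hμ1, Units.val_one]))
      (one_pow _) hres
    have h3 : μ = 1 := Units.ext (congrArg Subtype.val h2)
    rw [hμdef, div_eq_one] at h3
    exact h3
  have hF'n : F'.fixingSubgroup.Normal := ⟨fun s hs c => (hmem _).mpr fun g => by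
    rw [smul_smul, mul_assoc, mul_smul, mul_smul c s, show s • (c⁻¹ * g) • b = (c⁻¹ * g) • b from
      (hmem s).mp hs _, smul_smul, mul_inv_cancel_left]⟩
  refine ⟨N ⊓ F'.fixingSubgroup, (LT S).inf _ _ ⟨F, hF, hNF, hNn⟩ ⟨F', hF'S, rfl, hF'n⟩,
    inf_le_left, fun s hs g => (hmem s).mp hs.2 g⟩

end Fermat.Agent.GD
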