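import Fermat.Agent.GD.Global.ClassFormation.Second.AuxPrimes
import Fermat.Agent.GD.Global.First

/-!
# An element that is locally a power at a big set and adjusted at auxiliary primes is a power
-/

set_option autoImplicit false
set_option linter.unusedSectionVars false
set_option linter.style.haveILetI false

noncomputable section

namespace Fermat.Agent.GD

open IsLocalRing
open Fermat.Agent.Galois (GQ)
open scoped Pointwise

local notation "ℚb" => AlgebraicClosure ℚ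

variable {p : ℕ} [hp : Fact p.Prime] {T : Finset Nat.Primes} {H H' : Subgroup GQ}

/-- Inertia fixes the roots of units prime to the residue characteristic. -/
theorem inertia_fix_root {q : Nat.Primes} (hqp : (q : ℕ) ≠ p) {t : GQ}
    (ht : t ∈ (placeAt q).inertiaSubgroupIn ℚ) {y z : ℚbˣ} (hy : y ^ p = z)
    (hz : z ∈ (placeAt q).unitGroup) (hfix : t • z = z) : t • y = y := by
  obtain ⟨⟨t, htd⟩, htI, rfl⟩ := ht
  set A := placeAt q
  have hvy : A.valuation (y : ℚb) = 1 := by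
    refine (pow_eq_one_iff.mp ?_).resolve_right hp.out.ne_zero
    rw [← map_pow, ← Units.val_pow_eq_pow_val, hy]
    exact hz
  have hyA : (y : ℚb) ∈ A := (A.valuation_le_one_iff _).mp hvy.le
  have hyiA : ((y⁻¹ : ℚbˣ) : ℚb) ∈ A := (A.valuation_le_one_iff _).mp (by
    rw [Units.val_inv_eq_inv_val, map_inv₀]
    exact (inv_eq_one.mpr hvy).le)
  set μ := t • y / y with hμdef
  have hμ1 : μ ^ p = 1 := by
    rw [div_pow, ← smul_pow', hy]
    show t • z / z = 1
    rw [show t • z = z from hfix, div_self']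
  have hty : ((t • y : ℚbˣ) : ℚb) ∈ A := Galois.apply_mem_of_mem_decomposition htd hyA
  have hμA : (μ : ℚb) ∈ A := by
    rw [hμdef, div_eq_mul_inv, Units.val_mul]
    exact mul_mem hty hyiA
  have hres : residue A ⟨(μ : ℚb), hμA⟩ = residue A 1 := by
    have h1 : residue A ⟨_, hty⟩ = residue A ⟨(y : ℚb), hyA⟩ :=
      (Galois.residue_smul_eq htd ⟨(y : ℚb), hyA⟩).symm.trans
        (RingEquiv.congr_fun (MonoidHom.mem_ker.mp htI) (residue A ⟨(y : ℚb), hyA⟩))
    rw [show (⟨(μ : ℚb), hμA⟩ : A) = ⟨_, hty⟩ * ⟨_, hyiA⟩ from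
      Subtype.ext (show ((t • y / y : ℚbˣ) : ℚb) = ((t • y : ℚbˣ) : ℚb) * ((y⁻¹ : ℚbˣ) : ℚb) by
        rw [div_eq_mul_inv, Units.val_mul]), map_mul, h1, ← map_mul]
    congr 1
    exact Subtype.ext (Units.mul_inv y)
  have hqp' : ¬ (q : ℕ) ∣ p := fun h => hqp ((Nat.prime_dvd_prime_iff_eq q.2 hp.out).mp h)
  have h2 := GalRep.pow_eq_of_residue_eq q.2 (placeAt_liesOverPrime q) hqp'
    (x := ⟨(μ : ℚb), hμA⟩) (y := 1)
    (Subtype.ext (by push_cast; rw [← Units.val_pow_eq_pow_val, hμ1, Units.val_one]))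
    (one_pow _) hres
  have h3 : μ = 1 := Units.ext (congrArg Subtype.val h2)
  rw [hμdef, div_eq_one] at h3
  exact h3

/-- The stabiliser of a root of a fixed element. -/
theorem rootStab_normal_index (hμ : FixesMu p H) {b : ℚbˣ} (hbH : ∀ h ∈ H, h • b ^ p = b ^ p)
    {h₀ : GQ} (hh₀ : h₀ ∈ H) (hne : h₀ • b ≠ b) :
    ((H ⊓ MulAction.stabilizer GQ b).subgroupOf H).Normal ∧
      ((H ⊓ MulAction.stabilizer GQ b).subgroupOf H).index = p := by
  let χ : H →* ℚbˣ := MonoidHom.mk' (fun h => (h : GQ) • b / b) fun a c => by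
    have hc : ((c : GQ) • b / b) ^ p = 1 := by
      rw [div_pow, ← smul_pow', hbH _ c.2, div_self']
    have h1 := smul_root_eq hμ hc a.2
    rw [smul_div'] at h1
    show ((a : GQ) * (c : GQ)) • b / b = _
    rw [mul_smul, ← h1, div_mul_div_cancel']
  have hker : χ.ker = (H ⊓ MulAction.stabilizer GQ b).subgroupOf H := by
    ext h
    rw [MonoidHom.mem_ker, Subgroup.mem_subgroupOf]
    show (h : GQ) • b / b = 1 ↔ _
    rw [div_eq_one]
    exact ⟨fun he => ⟨h.2, he⟩, fun he => he.2⟩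
  refine ⟨hker ▸ χ.normal_ker, ?_⟩
  haveI : NeZero p := ⟨hp.out.ne_zero⟩
  rw [← hker, Subgroup.index_ker]
  have hle : χ.range ≤ rootsOfUnity p ℚb := by
    rintro _ ⟨h, rfl⟩
    rw [mem_rootsOfUnity]
    show ((h : GQ) • b / b) ^ p = 1
    rw [div_pow, ← smul_pow', hbH _ h.2, div_self']
  have hcard : Nat.card (rootsOfUnity p ℚb) = p := HasEnoughRootsOfUnity.natCard_rootsOfUnity ℚb p
  rcases (Nat.dvd_prime hp.out).mp (hcard ▸ Subgroup.card_dvd_of_le hle) with h | h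
  · exfalso
    refine hne (div_eq_one.mp ?_)
    have hm : χ ⟨h₀, hh₀⟩ ∈ χ.range := ⟨_, rfl⟩
    rw [Subgroup.card_eq_one.mp h, Subgroup.mem_bot] at hm
    exact hm
  · exact h

/-- The local groups of a full place of a cyclic extension of degree `p`. -/
theorem localGrp_normal_index (hn : (H'.subgroupOf H).Normal) (hidx : (H'.subgroupOf H).index = p)
    {v : Place} {g : GQ}
    (hfull : ∀ h ∈ H, ∃ d ∈ decomp v, g⁻¹ * d * g ∈ H ∧ (g⁻¹ * d * g)⁻¹ * h ∈ H') :
    ((localGrp v g H').subgroupOf (localGrp v g H)).Normal ∧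
      ((localGrp v g H').subgroupOf (localGrp v g H)).index = p := by
  haveI := hn
  let ψ : localGrp v g H →* H ⧸ H'.subgroupOf H :=
    (QuotientGroup.mk' _).comp (MonoidHom.mk'
      (fun d => (⟨conjGQ v g d.1, d.2⟩ : H)) fun a b => Subtype.ext (map_mul (conjGQ v g) a.1 b.1))
  have hker : ψ.ker = (localGrp v g H').subgroupOf (localGrp v g H) := by
    ext d
    rw [MonoidHom.mem_ker, Subgroup.mem_subgroupOf]
    exact (QuotientGroup.eq_one_iff _).trans Subgroup.mem_subgroupOf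
  refine ⟨hker ▸ ψ.normal_ker, ?_⟩
  have hsurj : Function.Surjective ψ := fun s => by
    obtain ⟨h, rfl⟩ := QuotientGroup.mk_surjective s
    obtain ⟨d, hd, hdH, hdd⟩ := hfull _ h.2
    refine ⟨⟨(⟨d, hd⟩ : decomp v), (mem_localGrp hd).mpr hdH⟩, QuotientGroup.eq.mpr ?_⟩
    rw [Subgroup.mem_subgroupOf]
    show (conjGQ v g (⟨d, hd⟩ : decomp v))⁻¹ * h.1 ∈ H'
    rwa [conjGQ_apply]
  rw [← hker, Subgroup.index_ker, MonoidHom.range_eq_top.mpr hsurj, Subgroup.card_top]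
  exact hidx

/-- The classes of the ideles supported over one place, as a homomorphism. -/
def placeHom (hH : (LT T).IsOpen H) (v : Place) (g : GQ) :
    Additive (fixedUnits (localGrp v g H)) →+ fixedClasses T H :=
  AddMonoidHom.mk' (fun c => ⟨placeCls T v g H (c.toMul : ℚbˣ), placeCls_mem hH c.toMul.2⟩)
    fun a b => Subtype.ext (placeCls_mul hH a.toMul.2 b.toMul.2)

theorem placeCls_pow_mem_normSet (hH : (LT T).IsOpen H) (hH' : (LT T).IsOpen H') (hle : H' ≤ H)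
    (hidx : (H'.subgroupOf H).index = p) {v : Place} {g : GQ} {e : ℚbˣ}
    (he : e ∈ fixedUnits (localGrp v g H)) : placeCls T v g H (e ^ p) ∈ normSet T H H' := by
  have h1 : placeCls T v g H (e ^ p) = p • placeCls T v g H e :=
    congrArg Subtype.val (map_nsmul (placeHom hH v g) p (Additive.ofMul (⟨e, he⟩ : fixedUnits (localGrp v g H))))
  rw [h1]
  exact nsmul_mem_normSet hH' hle hidx (placeCls_mem hH he)

/-- An element of a field with a big set `T`, locally a power over `T` and unit away from the chosen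
places over auxiliary primes, is a power when the units away from `T` fill these places. -/
theorem kummer_core (hp2 : p ≠ 2) (hpT : pPrime p ∈ T) {N : Subgroup GQ} (hN : (LT T).IsLevel N)
    (hNH : N ≤ H) (hbig : IsBig T N) (hμ : FixesMu p H) {r : ℕ} (q : Fin r → Nat.Primes)
    (g : Fin r → GQ) (hq : ∀ i, q i ∉ T)
    (hdec : ∀ i, ∀ d ∈ decomp (some (q i)), (g i)⁻¹ * d * g i ∈ H)
    (hadj : ∀ c : Fin r → ℚbˣ,
      (∀ i, c i ∈ fixedUnits (⊤ : Subgroup (LD (some (q i))).G)) →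
      (∀ i, c i ∈ (placeAt (q i)).unitGroup) →
      ∃ u : sUnits T H, ∀ i, ∃ e ∈ fixedUnits (⊤ : Subgroup (LD (some (q i))).G),
        c i = (g i • (u : ℚbˣ)) * e ^ p)
    {x : ℚbˣ} (hxH : ∀ h ∈ H, h • x = x)
    (hxloc : ∀ v ∈ placesOf T, ∀ γ : GQ, ∃ z ∈ fixedUnits (localGrp v γ H), z ^ p = γ • x)
    (hxu : ∀ q' ∉ T, ∀ γ : GQ, (∀ i, ¬ (q' = q i ∧ InDC (some (q i)) (g i) H γ)) →
      γ • x ∈ (placeAt q').unitGroup)
    {b : ℚbˣ} (hb : b ^ p = x) : ∀ h ∈ H, h • b = b := by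
  classical
  by_contra hcon
  push Not at hcon
  obtain ⟨h₀, hh₀, hne⟩ := hcon
  set T₃ := T ∪ Finset.univ.image q with hT₃
  have hTT : T ⊆ T₃ := Finset.subset_union_left
  have hN₃ : (LT T₃).IsLevel N := isLevel_of_subset hTT hN
  obtain ⟨M, hM, hMN, hMb⟩ := exists_level_kummerRoot (hTT hpT) hN₃ (x := x) (b := b)
    (fun s hs => hxH s (hNH hs)) (fun q' hq' γ => hxu q' (fun h => hq' (hTT h)) γ fun i h =>
      hq' (Finset.mem_union_right _ (h.1 ▸ Finset.mem_image_of_mem q (Finset.mem_univ i)))) hb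
  set Hx := H ⊓ MulAction.stabilizer GQ b
  obtain ⟨hnx, hidxx⟩ := rootStab_normal_index hμ (b := b)
    (fun h hh => by rw [hb, hxH h hh]) hh₀ hne
  have hlex : Hx ≤ H := inf_le_left
  have hoH : (LT T₃).IsOpen H := ⟨N, hN₃, hNH⟩
  have hoHx : (LT T₃).IsOpen Hx := ⟨M, hM, fun s hs => ⟨hNH (hMN hs), by
    have h1 := hMb s hs 1
    rwa [one_smul] at h1⟩⟩
  refine (first_inequality p T₃ hp2 H Hx hoHx hlex hnx hidxx hμ).1 (eq_top_iff.mpr fun c _ => ?_)
  refine mem_classNorms_of_normSet ?_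
  obtain ⟨f, hf, hfc⟩ := exists_fixed_lift T₃ H hoH c.1 c.2
  have hffix : IsFix H f.1 := isFix_of_smul_eq hf
  have hfT : f.1 ∈ idele T :=
    ⟨f.2.1, ⟨N, hN, fun v γ s hs => hffix v γ s (hNH hs)⟩, f.2.2.2⟩
  obtain ⟨x₀, hx₀, hx₀u⟩ := hbig H hNH ⟨f.1, hfT⟩ fun h hh =>
    funext fun v => funext fun γ => hffix v γ h hh
  have hfix0 : ∀ i, f.1 (some (q i)) (g i) / (g i • x₀) ∈
      fixedUnits (⊤ : Subgroup (LD (some (q i))).G) := by
    intro i
    rw [← localGrp_eq_top (hdec i)]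
    exact apply_mem_fixedUnits (f := f.1 / diag x₀)
      (fun v d hd γ => by
        show f.1 v (d * γ) / (d * γ) • x₀ = d • (f.1 v γ / γ • x₀)
        rw [f.2.1 v d hd γ, mul_smul, smul_div'])
      (fun v γ h hh => by
        show f.1 v (γ * h) / (γ * h) • x₀ = f.1 v γ / γ • x₀
        rw [hffix v γ h hh, mul_smul, hx₀ h hh]) (some (q i)) (g i)
  obtain ⟨u, hu⟩ := hadj (fun i => f.1 (some (q i)) (g i) / (g i • x₀)) hfix0
    (fun i => hx₀u _ (hq i) _)
  set w := x₀ * (u : ℚbˣ)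
  have hw : ∀ h ∈ H, h • w = w := fun h hh => by rw [smul_mul', hx₀ h hh, u.2.1 h hh]
  set J : idele T₃ := f / ⟨diag w, (diag_mem_fixedIdeles hN₃ hNH hw).1⟩
  have hJ : ∀ v γ, J.1 v γ = f.1 v γ / γ • x₀ / γ • (u : ℚbˣ) := fun v γ => by
    show f.1 v γ / γ • (x₀ * (u : ℚbˣ)) = _
    rw [smul_mul', div_div]
  have hJfix : IsFix H J.1 := fun v γ h hh => by
    rw [hJ, hJ, hffix v γ h hh, mul_smul, mul_smul, hx₀ h hh, u.2.1 h hh]
  have hJu : ∀ q' ∉ T, ∀ γ, J.1 (some q') γ ∈ (placeAt q').unitGroup := fun q' hq' γ => by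
    rw [hJ]
    exact div_mem (hx₀u q' hq' γ) (u.2.2 q' hq' γ)
  have hJc : toClass T₃ J = c.1 := by
    rw [← hfc, toClass_eq_iff, div_div_cancel_left]
    exact inv_mem (diag_mem_classKer hN₃ hNH hw)
  rw [← hJc]
  haveI := finite_placeIdx (S := T₃) hoH
  haveI : Fintype (PlaceIdx T₃ H) := Fintype.ofFinite _
  rw [toClass_eq_sum (S := T₃) (Finset.Subset.refl _) hoH J hJfix
    fun q' hq' γ => hJu q' (fun h => hq' (hTT h)) γ]
  refine AddSubgroup.sum_mem _ fun i _ => ?_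
  obtain ⟨⟨v, hv⟩, c'⟩ := i
  set γ : GQ := Quotient.out c'
  have hloc : J.1 v γ ∈ fixedUnits (localGrp v γ H) := apply_mem_fixedUnits J.2.1 hJfix v γ
  show placeCls T₃ v γ H (J.1 v γ) ∈ normSet T₃ H Hx
  have hbconj : ∀ d : GQ, d • γ • b = γ • b → (γ⁻¹ * d * γ) • b = b := fun d h => by
    rw [mul_smul, mul_smul, h, inv_smul_smul]
  by_cases hvT : v ∈ placesOf T
  · -- split over `T`
    obtain ⟨z, hz, hzp⟩ := hxloc v hvT γ
    refine placeCls_mem_normSet_split hoH hoHx hlex (fun d hd hdH => ⟨hdH, hbconj d ?_⟩) hloc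
    have hμ1 : (γ • b / z) ^ p = 1 := by rw [div_pow, ← smul_pow', hb, hzp, div_self']
    have hdm : (⟨d, hd⟩ : decomp v) ∈ localGrp v γ H := (mem_localGrp hd).mpr hdH
    have h1 : d • (γ • b / z) = γ • b / z := smul_root_localGrp hμ hdm hμ1
    have h2 : d • z = z := hz _ hdm
    rw [smul_div', h2, div_left_inj] at h1
    exact h1
  obtain _ | q' := v
  · exact absurd (show (none : Place) ∈ placesOf T from Finset.none_mem_insertNone) hvT
  have hq'T : q' ∉ T := fun h => hvT (Finset.some_mem_insertNone.mpr h)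
  by_cases hsp : ∃ i, q' = q i ∧ InDC (some (q i)) (g i) H γ
  · -- a chosen place
    obtain ⟨i, rfl, d, hd, h, hh, hγ⟩ := hsp
    obtain ⟨e, he, hce⟩ := hu i
    have he' : (⟨d, hd⟩ : decomp (some (q i))) • e = e := he _ (Subgroup.mem_top _)
    have hval : J.1 (some (q i)) γ = e ^ p := by
      rw [hγ, hJfix _ _ h hh, J.2.1 _ d hd, hJ, hce, mul_div_cancel_left, smul_pow']
      exact congrArg (· ^ p) he'
    rw [hval]
    exact placeCls_pow_mem_normSet hoH hoHx hlex hidxx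
      (fixedUnits_anti le_top he)
  -- an unramified place
  push Not at hsp
  have hxg : γ • x ∈ (placeAt q').unitGroup :=
    hxu q' hq'T γ fun i hi => hsp i hi.1 hi.2
  obtain ⟨F, hF, hNF, hNn⟩ := id hN
  have hqp : (q' : ℕ) ≠ p := fun h => hq'T (by rwa [show q' = pPrime p from Subtype.ext h])
  have hIn : ∀ s : GQ, s ∈ (placeAt q').inertiaSubgroupIn ℚ → γ⁻¹ * s * γ ∈ H := fun s hs => by
    refine hNH ?_
    simpa using! hNn.conj_mem s
      (by rw [hNF]; exact hF.2 q' hq'T (placeAt q') (placeAt_liesOverPrime q') hs) γ⁻¹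
  have hI : ∀ s : (LD (some q')).G, s.1 ∈ (placeAt q').inertiaSubgroupIn ℚ →
      s ∈ localGrp (some q') γ Hx := by
    intro s hs
    show conjGQ _ γ s ∈ Hx
    rw [conjGQ_eq]
    refine ⟨hIn _ hs, hbconj _ (inertia_fix_root hqp hs (by rw [← smul_pow', hb]) hxg ?_)⟩
    have h1 := hxH _ (hIn _ hs)
    rw [mul_smul, mul_smul, inv_smul_eq_iff] at h1
    exact h1
  by_cases hall : ∀ d ∈ decomp (some q'), γ⁻¹ * d * γ ∈ H → γ⁻¹ * d * γ ∈ Hx
  · exact placeCls_mem_normSet_split hoH hoHx hlex hall hloc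
  push Not at hall
  obtain ⟨d₀, hd₀, hd₀H, hd₀x⟩ := hall
  have hfull : ∀ h ∈ H, ∃ d ∈ decomp (some q'), γ⁻¹ * d * γ ∈ H ∧ (γ⁻¹ * d * γ)⁻¹ * h ∈ Hx := by
    intro h hh
    obtain ⟨i, hi⟩ := exists_pow_mul_mem hnx hidxx hd₀H hd₀x hh
    have e : γ⁻¹ * d₀ ^ i * γ = (γ⁻¹ * d₀ * γ) ^ i := by
      have := (conj_pow (i := i) (a := γ⁻¹) (b := d₀)).symm
      simpa using this
    exact ⟨d₀ ^ i, pow_mem hd₀ i, e ▸ pow_mem hd₀H i, e ▸ hi⟩
  obtain ⟨hn', hidx'⟩ := localGrp_normal_index hnx hidxx hfull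
  obtain ⟨e, he, hnorm⟩ := unit_is_norm (localGrp_open hoHx (some q') γ) (localGrp_mono hlex) hn'
    hidx' hI hloc (hJu q' hq'T γ)
  exact placeCls_mem_normSet_inert hoH hoHx hlex hfull he hloc hnorm

end Fermat.Agent.GD
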