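import Fermat.Agent.GD.Global.ClassFormation.Units

/-!
# Ideles supported over one place of a fixed field, their norms and classes
-/

set_option autoImplicit false
set_option linter.unusedSectionVars false
set_option linter.style.haveILetI false

noncomputable section

namespace Fermat.Agent.GD

open Fermat.Agent.Galois (GQ)

local notation "ℚb" => AlgebraicClosure ℚ

/-- The map `d ↦ g⁻¹ d g` into the global group. -/
def conjGQ (v : Place) (g : GQ) : (LD v).G →* GQ :=
  (MulAut.conj g⁻¹).toMonoidHom.comp (decomp v).subtype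

theorem conjGQ_apply (v : Place) (g d : GQ) (hd : d ∈ decomp v) :
    conjGQ v g (⟨d, hd⟩ : decomp v) = g⁻¹ * d * g := by
  show g⁻¹ * d * g⁻¹⁻¹ = _
  rw [inv_inv]

theorem conjGQ_eq (v : Place) (g : GQ) (d : (LD v).G) :
    conjGQ v g d = g⁻¹ * (show decomp v from d).1 * g :=
  conjGQ_apply v g _ (show decomp v from d).2

/-- The local group of the place of the fixed field of `H` given by `g`. -/
def localGrp (v : Place) (g : GQ) (H : Subgroup GQ) : Subgroup (LD v).G := H.comap (conjGQ v g)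

theorem mem_localGrp {v : Place} {g d : GQ} {H : Subgroup GQ} (hd : d ∈ decomp v) :
    (⟨d, hd⟩ : decomp v) ∈ localGrp v g H ↔ g⁻¹ * d * g ∈ H := by
  show conjGQ v g (⟨d, hd⟩ : decomp v) ∈ H ↔ _
  rw [conjGQ_apply]

/-- Being fixed by `H` under right translation. -/
def IsFix (H : Subgroup GQ) (f : IdeleFn) : Prop := ∀ v g, ∀ h ∈ H, f v (g * h) = f v g

/-- Equivariance for the decomposition groups. -/
def IsEqv (f : IdeleFn) : Prop := ∀ v, ∀ d ∈ decomp v, ∀ g, f v (d * g) = d • f v g

/-- The double coset of `g`. -/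
def InDC (v : Place) (g : GQ) (H : Subgroup GQ) (x : GQ) : Prop :=
  ∃ d ∈ decomp v, ∃ h ∈ H, x = d * g * h

theorem inDC_self (v : Place) (g : GQ) (H : Subgroup GQ) : InDC v g H g :=
  ⟨1, one_mem _, 1, one_mem _, by rw [one_mul, mul_one]⟩

theorem inDC_left_iff {v : Place} {g : GQ} {H : Subgroup GQ} {d : GQ} (hd : d ∈ decomp v) (x : GQ) :
    InDC v g H (d * x) ↔ InDC v g H x := by
  constructor
  · rintro ⟨d', hd', h, hh, e⟩
    exact ⟨d⁻¹ * d', mul_mem (inv_mem hd) hd', h, hh, by
      rw [mul_assoc d⁻¹, mul_assoc d⁻¹, ← e, inv_mul_cancel_left]⟩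
  · rintro ⟨d', hd', h, hh, rfl⟩
    exact ⟨d * d', mul_mem hd hd', h, hh, by group⟩

theorem inDC_right_iff {v : Place} {g : GQ} {H : Subgroup GQ} {h : GQ} (hh : h ∈ H) (x : GQ) :
    InDC v g H (x * h) ↔ InDC v g H x := by
  constructor
  · rintro ⟨d', hd', h', hh', e⟩
    exact ⟨d', hd', h' * h⁻¹, mul_mem hh' (inv_mem hh), by
      rw [← mul_assoc, ← e, mul_inv_cancel_right]⟩
  · rintro ⟨d', hd', h', hh', rfl⟩
    exact ⟨d', hd', h' * h, mul_mem hh' hh, by group⟩

/-- The idele function supported over one place. -/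
def sPlaceFn (v : Place) (g : GQ) (H : Subgroup GQ) (c : ℚbˣ) : IdeleFn :=
  open scoped Classical in fun w x =>
    if h : w = v ∧ InDC v g H x then h.2.choose • c else 1

variable {v : Place} {g : GQ} {H : Subgroup GQ} {c : ℚbˣ}

theorem sPlaceFn_of_not {w : Place} {x : GQ} (h : ¬ (w = v ∧ InDC v g H x)) :
    sPlaceFn v g H c w x = 1 := dif_neg h

theorem sPlaceFn_apply (hc : c ∈ fixedUnits (localGrp v g H)) {d h : GQ} (hd : d ∈ decomp v)
    (hh : h ∈ H) : sPlaceFn v g H c v (d * g * h) = d • c := by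
  have hex : v = v ∧ InDC v g H (d * g * h) := ⟨rfl, d, hd, h, hh, rfl⟩
  rw [sPlaceFn, dif_pos hex]
  obtain ⟨hd', h', hh', e⟩ := hex.2.choose_spec
  generalize hex.2.choose = d' at hd' e ⊢
  have hm : g⁻¹ * (d'⁻¹ * d) * g ∈ H := by
    have e1 : d'⁻¹ * (d * g * h) = g * h' := by rw [e]; group
    have : g⁻¹ * (d'⁻¹ * d) * g = h' * h⁻¹ := by
      calc g⁻¹ * (d'⁻¹ * d) * g = g⁻¹ * (d'⁻¹ * (d * g * h)) * h⁻¹ := by group
        _ = _ := by rw [e1]; group
    rw [this]
    exact mul_mem hh' (inv_mem hh)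
  have h1 := hc (⟨d'⁻¹ * d, mul_mem (inv_mem hd') hd⟩ : decomp v) ((mem_localGrp _).mpr hm)
  have h2 : (d'⁻¹ * d) • c = c := h1
  conv_lhs => rw [← h2, smul_smul, mul_inv_cancel_left]

theorem sPlaceFn_self (hc : c ∈ fixedUnits (localGrp v g H)) : sPlaceFn v g H c v g = c := by
  have := sPlaceFn_apply hc (one_mem (decomp v)) (one_mem H)
  rwa [one_mul, mul_one, one_smul] at this

theorem sPlaceFn_none_apply (hv : v ≠ none) (x : GQ) : sPlaceFn v g H c none x = 1 :=
  sPlaceFn_of_not fun h => hv h.1.symm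

theorem sPlaceFn_eqv (hc : c ∈ fixedUnits (localGrp v g H)) : IsEqv (sPlaceFn v g H c) := by
  intro w d hd x
  by_cases hx : w = v ∧ InDC v g H x
  · obtain ⟨rfl, d', hd', h', hh', rfl⟩ := hx
    rw [sPlaceFn_apply hc hd' hh', show d * (d' * g * h') = d * d' * g * h' by group,
      sPlaceFn_apply hc (mul_mem hd hd') hh', mul_smul]
  · rw [sPlaceFn_of_not hx, smul_one, sPlaceFn_of_not]
    rintro ⟨rfl, h⟩
    exact hx ⟨rfl, (inDC_left_iff hd x).mp h⟩

theorem sPlaceFn_fix (hc : c ∈ fixedUnits (localGrp v g H)) : IsFix H (sPlaceFn v g H c) := by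
  intro w x h hh
  by_cases hx : w = v ∧ InDC v g H x
  · obtain ⟨rfl, d', hd', h', hh', rfl⟩ := hx
    rw [sPlaceFn_apply hc hd' hh', show d' * g * h' * h = d' * g * (h' * h) by group,
      sPlaceFn_apply hc hd' (mul_mem hh' hh)]
  · rw [sPlaceFn_of_not hx, sPlaceFn_of_not]
    rintro ⟨rfl, h'⟩
    exact hx ⟨rfl, (inDC_right_iff hh x).mp h'⟩

theorem sPlaceFn_mul {c' : ℚbˣ} (hc : c ∈ fixedUnits (localGrp v g H))
    (hc' : c' ∈ fixedUnits (localGrp v g H)) :
    sPlaceFn v g H (c * c') = sPlaceFn v g H c * sPlaceFn v g H c' := by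
  funext w x
  rw [Pi.mul_apply, Pi.mul_apply]
  by_cases hx : w = v ∧ InDC v g H x
  · obtain ⟨rfl, d', hd', h', hh', rfl⟩ := hx
    rw [sPlaceFn_apply (mul_mem hc hc') hd' hh', sPlaceFn_apply hc hd' hh',
      sPlaceFn_apply hc' hd' hh', smul_mul']
  · rw [sPlaceFn_of_not hx, sPlaceFn_of_not hx, sPlaceFn_of_not hx, mul_one]

theorem sPlaceFn_unit (q : Nat.Primes) (hc : c ∈ fixedUnits (localGrp (some q) g H))
    (hu : c ∈ (placeAt q).unitGroup) (q' : Nat.Primes) (x : GQ) :
    sPlaceFn (some q) g H c (some q') x ∈ (placeAt q').unitGroup := by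
  by_cases hx : some q' = some q ∧ InDC (some q) g H x
  · obtain ⟨h0, d', hd', h', hh', rfl⟩ := hx
    obtain rfl := Option.some.inj h0
    rw [sPlaceFn_apply hc hd' hh', ValuationSubring.mem_unitGroup_iff]
    show (placeAt q').valuation (d' (c : ℚb)) = 1
    rw [Galois.valuation_apply_eq hd']
    exact hu
  · rw [sPlaceFn_of_not hx]; exact one_mem _

variable {T : Finset Nat.Primes}

theorem sPlaceFn_mem (hH : (LT T).IsOpen H) (hc : c ∈ fixedUnits (localGrp v g H)) :
    sPlaceFn v g H c ∈ idele T := by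
  obtain ⟨N, hN, hle⟩ := hH
  refine ⟨sPlaceFn_eqv hc, ⟨N, hN, fun w x s hs => sPlaceFn_fix hc w x s (hle hs)⟩,
    ((Set.finite_singleton v).preimage (Option.some_injective _).injOn).subset fun q hq => ?_⟩
  obtain ⟨x, hx⟩ := hq
  by_contra hne
  exact hx (by rw [sPlaceFn_of_not fun h => hne h.1]; exact one_mem _)

/-- A fixed function supported over one place is determined there. -/
theorem eq_placeFn {f : IdeleFn} (he : IsEqv f) (hf : IsFix H f)
    (hsupp : ∀ w x, ¬ (w = v ∧ InDC v g H x) → f w x = 1)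
    (hc : c ∈ fixedUnits (localGrp v g H)) (hval : f v g = c) : f = sPlaceFn v g H c := by
  funext w x
  by_cases hx : w = v ∧ InDC v g H x
  · obtain ⟨rfl, d', hd', h', hh', rfl⟩ := hx
    rw [hf w (d' * g) h' hh', he w d' hd' g, hval, sPlaceFn_apply hc hd' hh']
  · rw [hsupp w x hx, sPlaceFn_of_not hx]

theorem apply_mem_fixedUnits {f : IdeleFn} (he : IsEqv f) (hf : IsFix H f) (v : Place) (g : GQ) :
    f v g ∈ fixedUnits (localGrp v g H) := by
  intro d hd
  have h1 : (show decomp v from d).1 • f v g = f v g := by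
    rw [← he v _ (show decomp v from d).2 g]
    have hm : g⁻¹ * (show decomp v from d).1 * g ∈ H := by
      rw [← conjGQ_eq]; exact hd
    have h2 := hf v g _ hm
    rwa [show g * (g⁻¹ * (show decomp v from d).1 * g) = (show decomp v from d).1 * g by group] at h2
  exact h1

theorem isFix_of_smul_eq {f : idele T} (hf : ∀ h : (LT T).G, h ∈ H → h • f = f) :
    IsFix H f.1 := fun v x h hh => apply_mul_of_fixed (hf h hh) v x

theorem smul_eq_of_isFix {f : idele T} (hf : IsFix H f.1) :
    ∀ h : (LT T).G, h ∈ H → h • f = f :=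
  fun h hh => Subtype.ext (funext fun v => funext fun x => hf v x h hh)

/-- The class of an idele supported over one place. -/
def placeCls (T : Finset Nat.Primes) (v : Place) (g : GQ) (H : Subgroup GQ) (c : ℚbˣ) : ClassT T :=
  open scoped Classical in
  if h : sPlaceFn v g H c ∈ idele T then toClass T ⟨_, h⟩ else 0

theorem placeCls_eq (hH : (LT T).IsOpen H) (hc : c ∈ fixedUnits (localGrp v g H)) :
    placeCls T v g H c = toClass T ⟨_, sPlaceFn_mem hH hc⟩ := dif_pos _

theorem placeCls_mem (hH : (LT T).IsOpen H) (hc : c ∈ fixedUnits (localGrp v g H)) :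
    placeCls T v g H c ∈ fixedClasses T H := by
  intro h hh
  rw [placeCls_eq hH hc, smul_toClass,
    smul_eq_of_isFix (T := T) (f := ⟨_, sPlaceFn_mem hH hc⟩) (sPlaceFn_fix hc) h hh]

theorem placeCls_mul (hH : (LT T).IsOpen H) {c' : ℚbˣ} (hc : c ∈ fixedUnits (localGrp v g H))
    (hc' : c' ∈ fixedUnits (localGrp v g H)) :
    placeCls T v g H (c * c') = placeCls T v g H c + placeCls T v g H c' := by
  rw [placeCls_eq hH hc, placeCls_eq hH hc', placeCls_eq hH (mul_mem hc hc'), ← toClass_mul]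
  exact congrArg (toClass T) (Subtype.ext (sPlaceFn_mul hc hc'))

/-! ## Norms -/

/-- The class norms as a set of classes. -/
def normSet (T : Finset Nat.Primes) (H H' : Subgroup (LT T).G) : AddSubgroup (ClassT T) :=
  (classNorms T H H').map (fixedClasses T H).subtype

theorem nm_mem_normSet {H H' : Subgroup (LT T).G} (hH' : (LT T).IsOpen H') {y : ClassT T}
    (hy : y ∈ fixedClasses T H') : nm H H' y ∈ normSet T H H' :=
  ⟨⟨nm H H' y, fun h hh => nm_mem hH' hy h hh⟩, AddSubgroup.subset_closure ⟨y, hy, rfl⟩, rfl⟩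

theorem normSet_le {H H' : Subgroup (LT T).G} : normSet T H H' ≤ fixedClasses T H := by
  rintro _ ⟨c, -, rfl⟩
  exact c.2

theorem mem_classNorms_of_normSet {H H' : Subgroup (LT T).G} {c : fixedClasses T H}
    (h : (c : ClassT T) ∈ normSet T H H') : c ∈ classNorms T H H' := by
  obtain ⟨c', hc', e⟩ := h
  rwa [← Subtype.ext (a1 := c') (a2 := c) e]

theorem nsmul_mem_normSet {p : ℕ} {H H' : Subgroup (LT T).G} (hH' : (LT T).IsOpen H') (hle : H' ≤ H)
    (hidx : (H'.subgroupOf H).index = p) {y : ClassT T} (hy : y ∈ fixedClasses T H) :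
    p • y ∈ normSet T H H' := by
  have h1 := nm_mem_normSet (H := H) hH' (y := y) fun h hh => hy h (hle hh)
  rwa [nm_of_fixed (H := H) hH' hy, Subgroup.relIndex, hidx] at h1

variable {H' : Subgroup GQ}

/-- Norms of single-place ideles: the general criterion. -/
theorem placeCls_mem_normSet (hH : (LT T).IsOpen H) (hH' : (LT T).IsOpen H') (hle : H' ≤ H) {e : ℚbˣ}
    (he : e ∈ fixedUnits (localGrp v g H')) (hc : c ∈ fixedUnits (localGrp v g H)) {S : Type*}
    [Fintype S] (t : S → (show Subgroup (LT T).G from H))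
    (ht : Function.Bijective fun s => ((t s :
      (show Subgroup (LT T).G from H)) : (show Subgroup (LT T).G from H) ⧸
        (show Subgroup (LT T).G from H').subgroupOf (show Subgroup (LT T).G from H)))
    (hval : ∏ s, sPlaceFn v g H' e v (g * (show GQ from ((t s :
      (show Subgroup (LT T).G from H)) : (LT T).G))) = c) :
    placeCls T v g H c ∈ normSet T H H' := by
  have hy := placeCls_mem hH' he
  have h1 := nm_mem_normSet (H := (show Subgroup (LT T).G from H)) hH' hy
  have hfix : ∀ k ∈ (show Subgroup (LT T).G from H'),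
      k • (⟨_, sPlaceFn_mem hH' he⟩ : idele T) = ⟨_, sPlaceFn_mem hH' he⟩ :=
    smul_eq_of_isFix (T := T) (f := ⟨_, sPlaceFn_mem hH' he⟩) (sPlaceFn_fix he)
  rw [placeCls_eq hH' he, toClass_nm hH'] at h1
  rw [placeCls_eq hH hc]
  set F := (nm (show Subgroup (LT T).G from H) (show Subgroup (LT T).G from H')
    (Additive.ofMul (⟨_, sPlaceFn_mem hH' he⟩ : idele T))).toMul
  suffices key : F.1 = sPlaceFn v g H c by
    have e' : toClass T ⟨_, sPlaceFn_mem hH hc⟩ = toClass T F :=
      congrArg (toClass T) (Subtype.ext key.symm)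
    rw [e']
    exact h1
  have hval' : ∀ w x, F.1 w x = ∏ s, sPlaceFn v g H' e w (x * (show GQ from ((t s :
      (show Subgroup (LT T).G from H)) : (LT T).G))) := fun w x => nm_idele_apply t ht hfix w x
  have hfixA : Additive.ofMul (⟨_, sPlaceFn_mem hH' he⟩ : idele T) ∈
      fixPts (Additive (idele T)) (show Subgroup (LT T).G from H') :=
    fun k hk => congrArg Additive.ofMul (hfix k hk)
  have hF : ∀ h : (LT T).G, h ∈ H → h • F = F := fun h hh =>
    congrArg Additive.toMul (nm_mem (H := (show Subgroup (LT T).G from H)) hH' hfixA h hh)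
  refine eq_placeFn F.2.1 (isFix_of_smul_eq hF) (fun w x hx => ?_) hc
    ((hval' v g).trans hval)
  · rw [hval']
    refine Finset.prod_eq_one fun s _ => sPlaceFn_of_not fun h => hx ⟨h.1, ?_⟩
    obtain ⟨d, hd, h', hh', e'⟩ := h.2
    exact (inDC_right_iff (t s).2 x).mp ⟨d, hd, h', hle hh', e'⟩

/-- At a place split in the extension every element is a norm. -/
theorem placeCls_mem_normSet_split (hH : (LT T).IsOpen H) (hH' : (LT T).IsOpen H') (hle : H' ≤ H)
    (hsplit : ∀ d ∈ decomp v, g⁻¹ * d * g ∈ H → g⁻¹ * d * g ∈ H')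
    (hc : c ∈ fixedUnits (localGrp v g H)) : placeCls T v g H c ∈ normSet T H H' := by
  classical
  have hc' : c ∈ fixedUnits (localGrp v g H') := fun d hd => hc d (show conjGQ v g d ∈ H from hle hd)
  haveI := finite_quot (H := (show Subgroup (LT T).G from H)) hH'
  haveI : Fintype ((show Subgroup (LT T).G from H) ⧸
      (show Subgroup (LT T).G from H').subgroupOf (show Subgroup (LT T).G from H)) := Fintype.ofFinite _
  refine placeCls_mem_normSet hH hH' hle hc' hc (fun s : (show Subgroup (LT T).G from H) ⧸ (show Subgroup (LT T).G from H').subgroupOf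
    (show Subgroup (LT T).G from H) => s.out) (by simp only [QuotientGroup.out_eq']; exact Function.bijective_id) ?_
  rw [Finset.prod_eq_single ((1 : (show Subgroup (LT T).G from H)) : (show Subgroup (LT T).G from H) ⧸
      (show Subgroup (LT T).G from H').subgroupOf (show Subgroup (LT T).G from H))]
  · obtain ⟨k, hk⟩ := QuotientGroup.mk_out_eq_mul
      ((show Subgroup (LT T).G from H').subgroupOf (show Subgroup (LT T).G from H)) 1
    rw [hk, one_mul]
    have := sPlaceFn_apply (v := v) (g := g) (H := H') hc' (one_mem _) (Subgroup.mem_subgroupOf.mp k.2)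
    rw [one_mul, one_smul] at this
    exact this
  · intro s _ hs
    refine sPlaceFn_of_not fun h => hs ?_
    obtain ⟨d, hd, h', hh', e'⟩ := h.2
    set x : GQ := (show GQ from ((s.out : (show Subgroup (LT T).G from H)) : (LT T).G))
    have hdH : g⁻¹ * d * g ∈ H := by
      rw [show g⁻¹ * d * g = g⁻¹ * (d * g * h') * h'⁻¹ by group, ← e', inv_mul_cancel_left]
      exact mul_mem s.out.2 (inv_mem (hle hh'))
    have hxH' : x ∈ H' := by
      rw [show x = g⁻¹ * (g * x) by group, e', show g⁻¹ * (d * g * h') = g⁻¹ * d * g * h' by group]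
      exact mul_mem (hsplit d hd hdH) hh'
    rw [← QuotientGroup.out_eq' s, QuotientGroup.eq, Subgroup.mem_subgroupOf, mul_one]
    exact inv_mem hxH'
  · simp

/-- At a place with full local degree the local norms are norms. -/
theorem placeCls_mem_normSet_inert (hH : (LT T).IsOpen H) (hH' : (LT T).IsOpen H') (hle : H' ≤ H)
    (hfull : ∀ h ∈ H, ∃ d ∈ decomp v, g⁻¹ * d * g ∈ H ∧ (g⁻¹ * d * g)⁻¹ * h ∈ H')
    {e : ℚbˣ} (he : e ∈ fixedUnits (localGrp v g H'))
    (hc : c ∈ fixedUnits (localGrp v g H))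
    (hnorm : c = ∏ᶠ s : localGrp v g H ⧸ (localGrp v g H').subgroupOf (localGrp v g H),
      ((s.out : localGrp v g H) : (LD v).G) • e) : placeCls T v g H c ∈ normSet T H H' := by
  classical
  haveI hfin := finite_quot (H := (show Subgroup (LT T).G from H)) hH'
  let t : localGrp v g H ⧸ (localGrp v g H').subgroupOf (localGrp v g H) →
      (show Subgroup (LT T).G from H) := fun s => ⟨conjGQ v g s.out.1, s.out.2⟩
  have ht : Function.Bijective fun s => ((t s : (show Subgroup (LT T).G from H)) :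
      (show Subgroup (LT T).G from H) ⧸
        (show Subgroup (LT T).G from H').subgroupOf (show Subgroup (LT T).G from H)) := by
    refine ⟨fun a b h => ?_, fun s => ?_⟩
    · rw [← QuotientGroup.out_eq' a, ← QuotientGroup.out_eq' b, QuotientGroup.eq,
        Subgroup.mem_subgroupOf]
      have h1 : (conjGQ v g a.out.1)⁻¹ * conjGQ v g b.out.1 ∈ H' :=
        Subgroup.mem_subgroupOf.mp (QuotientGroup.eq.mp h)
      show conjGQ v g ((a.out⁻¹ * b.out : localGrp v g H) : (LD v).G) ∈ H'
      rw [Subgroup.coe_mul, Subgroup.coe_inv, map_mul, map_inv]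
      exact h1
    · obtain ⟨d, hd, hdH, hdd⟩ := hfull _ s.out.2
      let dd : localGrp v g H := ⟨(⟨d, hd⟩ : decomp v), (mem_localGrp hd).mpr hdH⟩
      refine ⟨(dd : localGrp v g H ⧸ (localGrp v g H').subgroupOf (localGrp v g H)), ?_⟩
      obtain ⟨k, hk⟩ := QuotientGroup.mk_out_eq_mul ((localGrp v g H').subgroupOf (localGrp v g H)) dd
      rw [← QuotientGroup.out_eq' s, QuotientGroup.eq, Subgroup.mem_subgroupOf]
      show (conjGQ v g _)⁻¹ * (show GQ from ((s.out : (show Subgroup (LT T).G from H)) : (LT T).G)) ∈ H'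
      rw [hk, Subgroup.coe_mul, map_mul, mul_inv_rev, mul_assoc, conjGQ_eq v g dd.1]
      exact mul_mem (inv_mem (Subgroup.mem_subgroupOf.mp k.2 : conjGQ v g k.1.1 ∈ H')) hdd
  haveI : Finite (localGrp v g H ⧸ (localGrp v g H').subgroupOf (localGrp v g H)) :=
    Finite.of_injective _ ht.1
  haveI : Fintype (localGrp v g H ⧸ (localGrp v g H').subgroupOf (localGrp v g H)) :=
    Fintype.ofFinite _
  refine placeCls_mem_normSet hH hH' hle he hc t ht ?_
  rw [hnorm, finprod_eq_prod_of_fintype]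
  refine Finset.prod_congr rfl fun s _ => ?_
  have h1 := sPlaceFn_apply (H := H') he (show decomp v from s.out.1).2 (one_mem _)
  show sPlaceFn v g H' e v (g * conjGQ v g s.out.1) = _
  rw [conjGQ_eq, show g * (g⁻¹ * (show decomp v from s.out.1).1 * g) =
    (show decomp v from s.out.1).1 * g * 1 by group]
  exact h1

end Fermat.Agent.GD
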